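import Mathlib
import Fermat.Prelude.Def_ModularCurve_LaurentCoeff

/-!
# The Gauss ring of `L((q))` attached to a valuation subring `A ⊆ L` (P-ES, ES-D-GAUSS, part 0)

`A` is a valuation subring of a field `L`, `k` its residue field.
`vIota A : A((q)) → L((q))`, `vRho A : A((q)) → k((q))` are the coefficientwise maps,
`vGaussRing A = {ι a / ι b | ρ b ≠ 0} ⊆ L((q))` and `vGaussRed A : vGaussRing A →+* k((q))`,
`ι a / ι b ↦ ρ a / ρ b`.
-/

set_option autoImplicit false
set_option linter.unusedSectionVars false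

noncomputable section

namespace Fermat.Agent.H66

open ModularCurve

variable {L : Type*} [Field L] (A : ValuationSubring L)

/-- The coefficientwise inclusion `A((q)) → L((q))`. -/
def vIota : LaurentSeries ↥A →+* LaurentSeries L := coeffMap A.subtype

/-- The coefficientwise reduction `A((q)) → k((q))`. -/
def vRho : LaurentSeries ↥A →+* LaurentSeries (IsLocalRing.ResidueField ↥A) :=
  coeffMap (IsLocalRing.residue ↥A)

@[simp] theorem vIota_coeff (a : LaurentSeries ↥A) (m : ℤ) :
    (vIota A a).coeff m = ((a.coeff m : ↥A) : L) := rfl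

@[simp] theorem vRho_coeff (a : LaurentSeries ↥A) (m : ℤ) :
    (vRho A a).coeff m = IsLocalRing.residue ↥A (a.coeff m) := rfl

theorem vIota_injective : Function.Injective (vIota A) := by
  intro a b h
  refine HahnSeries.ext (funext fun m => ?_)
  have h1 := congrArg (fun x : LaurentSeries L => x.coeff m) h
  simp only [vIota_coeff] at h1
  exact Subtype.ext h1

theorem vIota_eq_zero_iff (a : LaurentSeries ↥A) : vIota A a = 0 ↔ a = 0 :=
  ⟨fun h => vIota_injective A (by rw [h, map_zero]), fun h => by rw [h, map_zero]⟩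

theorem mem_range_vIota_iff (x : LaurentSeries L) :
    x ∈ Set.range (vIota A) ↔ ∀ m, x.coeff m ∈ A := by
  constructor
  · rintro ⟨a, rfl⟩ m
    exact (a.coeff m).2
  · intro h
    have hsupp : (Function.support fun m : ℤ => (⟨x.coeff m, h m⟩ : ↥A)) = x.support := by
      ext m
      simp only [Function.mem_support, ne_eq, HahnSeries.mem_support]
      constructor
      · intro h1 h2
        exact h1 (Subtype.ext h2)
      · intro h1 h2
        exact h1 (congrArg Subtype.val h2)
    refine ⟨⟨fun m => ⟨x.coeff m, h m⟩, by rw [hsupp]; exact x.isPWO_support⟩, ?_⟩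
    refine HahnSeries.ext (funext fun m => ?_)
    rfl

theorem vRho_ne_zero_iff (a : LaurentSeries ↥A) :
    vRho A a ≠ 0 ↔ ∃ m, IsUnit (a.coeff m) := by
  constructor
  · intro h
    by_contra hcon
    push Not at hcon
    apply h
    refine HahnSeries.ext (funext fun m => ?_)
    show IsLocalRing.residue ↥A (a.coeff m) = 0
    rw [IsLocalRing.residue_eq_zero_iff]
    exact (IsLocalRing.mem_maximalIdeal _).mpr (hcon m)
  · rintro ⟨m, hm⟩ h
    have h1 : IsLocalRing.residue ↥A (a.coeff m) = 0 := by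
      rw [← vRho_coeff, h]
      rfl
    rw [IsLocalRing.residue_eq_zero_iff] at h1
    exact (IsLocalRing.mem_maximalIdeal _).mp h1 hm

theorem vIota_ne_zero_of_vRho_ne_zero {b : LaurentSeries ↥A} (hb : vRho A b ≠ 0) :
    vIota A b ≠ 0 := by
  intro h
  rw [vIota_eq_zero_iff] at h
  exact hb (by rw [h, map_zero])

/-- The Gauss ring `{ι a / ι b | ρ b ≠ 0}` inside `L((q))`. -/
def vGaussRing : Subring (LaurentSeries L) where
  carrier := {x | ∃ a b : LaurentSeries ↥A, vRho A b ≠ 0 ∧ x * vIota A b = vIota A a}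
  mul_mem' := by
    rintro x y ⟨a, b, hb, hx⟩ ⟨c, d, hd, hy⟩
    refine ⟨a * c, b * d, ?_, ?_⟩
    · rw [map_mul]
      exact mul_ne_zero hb hd
    · rw [map_mul, map_mul, ← hx, ← hy]
      ring
  one_mem' := ⟨1, 1, by rw [map_one]; exact one_ne_zero, by rw [map_one, mul_one]⟩
  add_mem' := by
    rintro x y ⟨a, b, hb, hx⟩ ⟨c, d, hd, hy⟩
    refine ⟨a * d + c * b, b * d, ?_, ?_⟩
    · rw [map_mul]
      exact mul_ne_zero hb hd
    · rw [map_mul, map_add, map_mul, map_mul, ← hx, ← hy]
      ring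
  zero_mem' := ⟨0, 1, by rw [map_one]; exact one_ne_zero, by rw [map_zero, zero_mul]⟩
  neg_mem' := by
    rintro x ⟨a, b, hb, hx⟩
    exact ⟨-a, b, hb, by rw [map_neg, ← hx, neg_mul]⟩

theorem mem_vGaussRing_iff (x : LaurentSeries L) :
    x ∈ vGaussRing A ↔ ∃ a b : LaurentSeries ↥A,
      vRho A b ≠ 0 ∧ x * vIota A b = vIota A a := Iff.rfl

theorem vIota_mem_vGaussRing (a : LaurentSeries ↥A) : vIota A a ∈ vGaussRing A :=
  ⟨a, 1, by rw [map_one]; exact one_ne_zero, by rw [map_one, mul_one]⟩

theorem vRho_div_eq {x : LaurentSeries L} {a b a₀ b₀ : LaurentSeries ↥A}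
    (hb : vRho A b ≠ 0) (hb₀ : vRho A b₀ ≠ 0)
    (h : x * vIota A b = vIota A a) (h₀ : x * vIota A b₀ = vIota A a₀) :
    vRho A a₀ / vRho A b₀ = vRho A a / vRho A b := by
  rw [div_eq_div_iff hb₀ hb, ← map_mul, ← map_mul]
  congr 1
  apply vIota_injective A
  rw [map_mul, map_mul, ← h₀, ← h]
  ring

/-- The reduction map on the Gauss ring, as a function. -/
def vGaussRedFun (x : vGaussRing A) : LaurentSeries (IsLocalRing.ResidueField ↥A) :=
  vRho A x.2.choose / vRho A x.2.choose_spec.choose

theorem vGaussRedFun_eq (x : vGaussRing A) (a b : LaurentSeries ↥A)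
    (hb : vRho A b ≠ 0) (h : (x : LaurentSeries L) * vIota A b = vIota A a) :
    vGaussRedFun A x = vRho A a / vRho A b :=
  vRho_div_eq A hb x.2.choose_spec.choose_spec.1 h x.2.choose_spec.choose_spec.2

/-- The reduction map `vGaussRing A →+* k((q))`. -/
def vGaussRed : vGaussRing A →+* LaurentSeries (IsLocalRing.ResidueField ↥A) where
  toFun := vGaussRedFun A
  map_one' := by
    rw [vGaussRedFun_eq A 1 1 1 (by rw [map_one]; exact one_ne_zero)
      (by rw [map_one, mul_one]; rfl), map_one, div_one]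
  map_mul' x y := by
    obtain ⟨a, b, hb, hx⟩ := x.2
    obtain ⟨c, d, hd, hy⟩ := y.2
    rw [vGaussRedFun_eq A x a b hb hx, vGaussRedFun_eq A y c d hd hy,
      vGaussRedFun_eq A (x * y) (a * c) (b * d) (by rw [map_mul]; exact mul_ne_zero hb hd)
        (by rw [map_mul, map_mul, ← hx, ← hy]; push_cast; ring),
      map_mul, map_mul, mul_div_mul_comm]
  map_zero' := by
    rw [vGaussRedFun_eq A 0 0 1 (by rw [map_one]; exact one_ne_zero)
      (by rw [map_zero, map_one, mul_one]; rfl), map_zero, zero_div]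
  map_add' x y := by
    obtain ⟨a, b, hb, hx⟩ := x.2
    obtain ⟨c, d, hd, hy⟩ := y.2
    rw [vGaussRedFun_eq A x a b hb hx, vGaussRedFun_eq A y c d hd hy,
      vGaussRedFun_eq A (x + y) (a * d + b * c) (b * d) (by rw [map_mul]; exact mul_ne_zero hb hd)
        (by rw [map_mul, map_add, map_mul, map_mul, ← hx, ← hy]; push_cast; ring),
      map_mul, map_add, map_mul, map_mul, div_add_div _ _ hb hd]

theorem vGaussRed_eq (x : vGaussRing A) (a b : LaurentSeries ↥A)
    (hb : vRho A b ≠ 0) (h : (x : LaurentSeries L) * vIota A b = vIota A a) :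
    vGaussRed A x = vRho A a / vRho A b :=
  vGaussRedFun_eq A x a b hb h

theorem vGaussRed_vIota (a : LaurentSeries ↥A) :
    vGaussRed A ⟨vIota A a, vIota_mem_vGaussRing A a⟩ = vRho A a := by
  rw [vGaussRed_eq A _ a 1 (by rw [map_one]; exact one_ne_zero) (by rw [map_one, mul_one]),
    map_one, div_one]

/-- Elements of the Gauss ring with nonzero reduction are units. -/
theorem inv_mem_vGaussRing {x : vGaussRing A} (hx : vGaussRed A x ≠ 0) :
    (x : LaurentSeries L)⁻¹ ∈ vGaussRing A := by
  obtain ⟨a, b, hb, hab⟩ := x.2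
  rw [vGaussRed_eq A x a b hb hab] at hx
  have ha : vRho A a ≠ 0 := fun h => hx (by rw [h, zero_div])
  have hb' := vIota_ne_zero_of_vRho_ne_zero A hb
  have ha' := vIota_ne_zero_of_vRho_ne_zero A ha
  have hx0 : (x : LaurentSeries L) ≠ 0 := by
    intro h0
    rw [h0, zero_mul] at hab
    exact ha' hab.symm
  refine ⟨b, a, ha, ?_⟩
  rw [← hab]
  field_simp

theorem vGaussRed_inv {x : vGaussRing A} (hx : vGaussRed A x ≠ 0) :
    vGaussRed A ⟨(x : LaurentSeries L)⁻¹, inv_mem_vGaussRing A hx⟩ = (vGaussRed A x)⁻¹ := by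
  have hx0 : (x : LaurentSeries L) ≠ 0 := by
    intro h
    apply hx
    have : x = 0 := Subtype.ext h
    rw [this, map_zero]
  have h1 : (⟨(x : LaurentSeries L)⁻¹, inv_mem_vGaussRing A hx⟩ : vGaussRing A) * x = 1 := by
    apply Subtype.ext
    exact inv_mul_cancel₀ hx0
  have h2 := congrArg (vGaussRed A) h1
  rw [map_mul, map_one] at h2
  exact eq_inv_of_mul_eq_one_left h2

/-- The kernel of the reduction map. -/
theorem vGaussRed_eq_zero_iff (x : vGaussRing A) :
    vGaussRed A x = 0 ↔ ∃ a b : LaurentSeries ↥A,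
      vRho A b ≠ 0 ∧ vRho A a = 0 ∧ (x : LaurentSeries L) * vIota A b = vIota A a := by
  constructor
  · intro h
    obtain ⟨a, b, hb, hx⟩ := x.2
    rw [vGaussRed_eq A x a b hb hx, div_eq_zero_iff] at h
    rcases h with h | h
    · exact ⟨a, b, hb, h, hx⟩
    · exact absurd h hb
  · rintro ⟨a, b, hb, ha, hx⟩
    rw [vGaussRed_eq A x a b hb hx, ha, zero_div]

/-! ### Constants -/

theorem coeff_algebraMap_mul (c : L) (x : LaurentSeries L) (m : ℤ) :
    (algebraMap L (LaurentSeries L) c * x).coeff m = c * x.coeff m := by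
  rw [algebraMap_laurentSeries_eq_single, ← HahnSeries.C_apply, HahnSeries.C_mul_eq_smul,
    HahnSeries.coeff_smul, smul_eq_mul]

theorem algebraMap_eq_vIota (c : ↥A) :
    algebraMap L (LaurentSeries L) (c : L) = vIota A (HahnSeries.C c) := by
  rw [algebraMap_laurentSeries_eq_single]
  refine HahnSeries.ext (funext fun m => ?_)
  rw [vIota_coeff]
  by_cases hm : m = 0
  · subst hm
    simp
  · rw [HahnSeries.coeff_single_of_ne hm]
    simp [HahnSeries.C, HahnSeries.coeff_single_of_ne hm]

theorem vRho_C (c : ↥A) :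
    vRho A (HahnSeries.C c) = algebraMap (IsLocalRing.ResidueField ↥A)
      (LaurentSeries (IsLocalRing.ResidueField ↥A)) (IsLocalRing.residue ↥A c) := by
  rw [algebraMap_laurentSeries_eq_single]
  refine HahnSeries.ext (funext fun m => ?_)
  rw [vRho_coeff]
  by_cases hm : m = 0
  · subst hm
    simp
  · rw [HahnSeries.coeff_single_of_ne hm]
    simp [HahnSeries.C, HahnSeries.coeff_single_of_ne hm]

theorem algebraMap_mem_vGaussRing {c : L} (hc : c ∈ A) :
    algebraMap L (LaurentSeries L) c ∈ vGaussRing A := by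
  rw [show c = ((⟨c, hc⟩ : ↥A) : L) from rfl, algebraMap_eq_vIota]
  exact vIota_mem_vGaussRing A _

theorem vGaussRed_algebraMap {c : L} (hc : c ∈ A) :
    vGaussRed A ⟨algebraMap L (LaurentSeries L) c, algebraMap_mem_vGaussRing A hc⟩ =
      algebraMap (IsLocalRing.ResidueField ↥A) (LaurentSeries (IsLocalRing.ResidueField ↥A))
        (IsLocalRing.residue ↥A ⟨c, hc⟩) := by
  rw [← vRho_C, ← vGaussRed_vIota]
  congr 1
  exact Subtype.ext (algebraMap_eq_vIota A ⟨c, hc⟩)

/-- `O ∩ L = A`. -/
theorem algebraMap_mem_vGaussRing_iff (c : L) :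
    algebraMap L (LaurentSeries L) c ∈ vGaussRing A ↔ c ∈ A := by
  constructor
  · rintro ⟨a, b, hb, hab⟩
    obtain ⟨m, hm⟩ := (vRho_ne_zero_iff A b).mp hb
    have h1 := congrArg (fun x : LaurentSeries L => x.coeff m) hab
    simp only [coeff_algebraMap_mul, vIota_coeff] at h1
    have hbm : ((b.coeff m : ↥A) : L) ≠ 0 := by
      intro h0
      have : b.coeff m = 0 := Subtype.ext h0
      rw [this] at hm
      exact not_isUnit_zero hm
    obtain ⟨u, hu⟩ := hm
    have h2 : c = ((a.coeff m * (↑u⁻¹ : ↥A) : ↥A) : L) := by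
      have h3 : ((u : ↥A) : L) * (((↑u⁻¹ : ↥A)) : L) = 1 := by
        have := congrArg (Subtype.val) (Units.mul_inv u)
        exact this
      push_cast
      rw [← h1, ← hu, mul_assoc, h3, mul_one]
    rw [h2]
    exact (a.coeff m * (↑u⁻¹ : ↥A)).2
  · exact algebraMap_mem_vGaussRing A

/-- If `c • u` is in the Gauss ring for a unit `u` of the Gauss ring, then `c ∈ A`. -/
theorem mem_of_algebraMap_mul_mem {c : L} {u : vGaussRing A} (hu : vGaussRed A u ≠ 0)
    (h : algebraMap L (LaurentSeries L) c * (u : LaurentSeries L) ∈ vGaussRing A) : c ∈ A := by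
  rw [← algebraMap_mem_vGaussRing_iff]
  have hu0 : (u : LaurentSeries L) ≠ 0 := by
    intro h0
    apply hu
    have : u = 0 := Subtype.ext h0
    rw [this, map_zero]
  have h1 : algebraMap L (LaurentSeries L) c =
      (algebraMap L (LaurentSeries L) c * (u : LaurentSeries L)) * (u : LaurentSeries L)⁻¹ := by
    rw [mul_assoc, mul_inv_cancel₀ hu0, mul_one]
  rw [h1]
  exact mul_mem h (inv_mem_vGaussRing A hu)

/-- Lifts of linearly independent reductions are linearly independent. -/
theorem linearIndependent_of_vGaussRed {ι : Type*} [Finite ι] (u : ι → vGaussRing A)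
    (h : LinearIndependent (IsLocalRing.ResidueField ↥A) (fun i => vGaussRed A (u i))) :
    LinearIndependent L (fun i => (u i : LaurentSeries L)) := by
  classical
  have := Fintype.ofFinite ι
  rw [Fintype.linearIndependent_iff]
  intro c hc
  by_contra hcon
  push Not at hcon
  obtain ⟨i₀, hi₀⟩ := hcon
  -- choose the coefficient of maximal valuation
  obtain ⟨j, -, hj⟩ := Finset.exists_max_image Finset.univ (fun i => A.valuation (c i))
    ⟨i₀, Finset.mem_univ _⟩
  have hcj : c j ≠ 0 := by
    intro h0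
    have h1 := hj i₀ (Finset.mem_univ _)
    rw [h0, map_zero] at h1
    have h2 : A.valuation (c i₀) = 0 := le_antisymm h1 zero_le
    rw [map_eq_zero] at h2
    exact hi₀ h2
  have hmem : ∀ i, c i * (c j)⁻¹ ∈ A := by
    intro i
    rw [← A.valuation_le_one_iff, map_mul, map_inv₀]
    have h1 := hj i (Finset.mem_univ _)
    have hvj : A.valuation (c j) ≠ 0 := (map_ne_zero _).mpr hcj
    calc A.valuation (c i) * (A.valuation (c j))⁻¹
        ≤ A.valuation (c j) * (A.valuation (c j))⁻¹ := by gcongr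
      _ = 1 := mul_inv_cancel₀ hvj
  -- the relation with coefficients in `A`
  have hrel : ∑ i, (⟨algebraMap L (LaurentSeries L) (c i * (c j)⁻¹),
      algebraMap_mem_vGaussRing A (hmem i)⟩ : vGaussRing A) * u i = 0 := by
    apply Subtype.ext
    have h1 : ∀ i, algebraMap L (LaurentSeries L) (c i * (c j)⁻¹) * (u i : LaurentSeries L) =
        (c j)⁻¹ • (c i • (u i : LaurentSeries L)) := by
      intro i
      rw [algebraMap_laurentSeries_eq_single, ← HahnSeries.C_apply, HahnSeries.C_mul_eq_smul,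
        mul_comm, mul_smul]
    have h2 : (((∑ i, (⟨algebraMap L (LaurentSeries L) (c i * (c j)⁻¹),
        algebraMap_mem_vGaussRing A (hmem i)⟩ : vGaussRing A) * u i : vGaussRing A)) :
        LaurentSeries L) =
        ∑ i, algebraMap L (LaurentSeries L) (c i * (c j)⁻¹) * (u i : LaurentSeries L) := by
      rw [AddSubmonoidClass.coe_finsetSum]
      rfl
    rw [h2, Finset.sum_congr rfl (fun i _ => h1 i), ← Finset.smul_sum, hc, smul_zero]
    rfl
  have hrel2 := congrArg (vGaussRed A) hrel
  rw [map_sum, map_zero] at hrel2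
  have hrel3 : ∑ i, IsLocalRing.residue ↥A ⟨c i * (c j)⁻¹, hmem i⟩ • vGaussRed A (u i) = 0 := by
    rw [← hrel2]
    refine Finset.sum_congr rfl fun i _ => ?_
    rw [map_mul, vGaussRed_algebraMap A (hmem i), algebraMap_laurentSeries_eq_single,
      ← HahnSeries.C_apply, HahnSeries.C_mul_eq_smul]
  have h0 := (Fintype.linearIndependent_iff.mp h) _ hrel3 j
  rw [IsLocalRing.residue_eq_zero_iff] at h0
  have h1 : (⟨c j * (c j)⁻¹, hmem j⟩ : ↥A) = 1 := Subtype.ext (mul_inv_cancel₀ hcj)
  rw [h1] at h0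
  exact (IsLocalRing.maximalIdeal.isMaximal ↥A).ne_top ((Ideal.eq_top_iff_one _).mpr h0)

end Fermat.Agent.H66
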