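import Mathlib
import Fermat.Prelude.Def_ModularCurve_ReductionModL
import Fermat.Agent.H66.ESD.GaussRing
import Fermat.Agent.H27.ESD.Interfaces

/-!
# P-ES / ES-D-GAUSS (row 303, helper66): interface

`L = ℚ̄`, `A` a valuation subring of `L`, `k` its residue field, `F_L = modularFunctionFieldBar N`,
`F_k = modularFunctionFieldFullC k N`.

* `gaussOBar N A : Subring F_L` : the Gauss ring `O = {y ∈ F_L | y = ι Y₁ / ι Y₂, Y_i ∈ A((q)),
  Y₂ mod 𝔪 ≠ 0}`;
* `gaussRedBar N A : O →+* k((q))` : the reduction map `ι Y₁ / ι Y₂ ↦ ρ Y₁ / ρ Y₂`;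
* `GaussNormStatement` (G1), `GaussSurjStatement` (G2a), `GaussRangeStatement` (G2b),
  `GaussLatticeStatement` (G3), `GaussDivStatement` (G4).
-/

set_option autoImplicit false
set_option synthInstance.maxHeartbeats 400000

open AlgebraicCurve ModularCurve

namespace Fermat.Agent.H66

noncomputable section

variable (N : ℕ) (A : ValuationSubring (AlgebraicClosure ℚ))

/-- The Gauss ring of `F_L = modularFunctionFieldBar N`. -/
def gaussOBar : Subring ↥(modularFunctionFieldBar N) :=
  (vGaussRing A).comap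
    (algebraMap ↥(modularFunctionFieldBar N) (LaurentSeries (AlgebraicClosure ℚ)))

theorem mem_gaussOBar_iff (y : ↥(modularFunctionFieldBar N)) :
    y ∈ gaussOBar N A ↔ (y : LaurentSeries (AlgebraicClosure ℚ)) ∈ vGaussRing A := Iff.rfl

/-- The reduction map on the Gauss ring of `F_L`. -/
def gaussRedBar : ↥(gaussOBar N A) →+* LaurentSeries (IsLocalRing.ResidueField ↥A) :=
  (vGaussRed A).comp
    (RingHom.codRestrict
      ((algebraMap ↥(modularFunctionFieldBar N) (LaurentSeries (AlgebraicClosure ℚ))).comp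
        (gaussOBar N A).subtype)
      (vGaussRing A) (fun x => x.2))

theorem gaussRedBar_apply (y : ↥(gaussOBar N A)) :
    gaussRedBar N A y =
      vGaussRed A ⟨((y : ↥(modularFunctionFieldBar N)) : LaurentSeries (AlgebraicClosure ℚ)),
        y.2⟩ := rfl

/-- **(G1) Normalisation.**  Every nonzero element of `F_L` is a constant times a unit of the
Gauss ring.  (Hence `O` is a valuation ring of `F_L` with `O ∩ L = A`.) -/
def GaussNormStatement : Prop :=
  ∀ (N : ℕ) [NeZero N] (ℓ : ℕ) [Fact ℓ.Prime] (A : ValuationSubring (AlgebraicClosure ℚ)),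
    A.LiesOverPrime ℓ →
    ∀ y : ↥(modularFunctionFieldBar N), y ≠ 0 →
      ∃ (c : AlgebraicClosure ℚ) (u : ↥(gaussOBar N A)), c ≠ 0 ∧ gaussRedBar N A u ≠ 0 ∧
        y = c • (u : ↥(modularFunctionFieldBar N))

/-- **(G2a)** Every element of `F_k` is the reduction of an element of the Gauss ring. -/
def GaussSurjStatement : Prop :=
  ∀ (N : ℕ) [NeZero N] (ℓ : ℕ) [Fact ℓ.Prime] (A : ValuationSubring (AlgebraicClosure ℚ)),
    A.LiesOverPrime ℓ →
    ∀ y ∈ modularFunctionFieldFullC (IsLocalRing.ResidueField ↥A) N,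
      ∃ u : ↥(gaussOBar N A), gaussRedBar N A u = y

/-- **(G2b)** Under the reduction inputs `h` (and `L(0) = L` on `F_L`), reductions of elements of
the Gauss ring lie in `F_k`. -/
def GaussRangeStatement : Prop :=
  ∀ (N : ℕ) [NeZero N] (ℓ : ℕ) [Fact ℓ.Prime] (A : ValuationSubring (AlgebraicClosure ℚ)),
    A.LiesOverPrime ℓ → ModularCurve.ReductionInputsModL A N →
    ∀ gL : ℕ, Fermat.Agent.H27.ESD.RiemannPackage (AlgebraicClosure ℚ)
        ↥(modularFunctionFieldBar N) gL →
    ∀ u : ↥(gaussOBar N A),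
      gaussRedBar N A u ∈ modularFunctionFieldFullC (IsLocalRing.ResidueField ↥A) N

/-- **(G3) Lattice reduction.**  For a finite-dimensional `L`-subspace `V` of `F_L` there are
`dim V` elements of `V ∩ O` with `k`-linearly independent reductions.  (The converse inequality
`dim_k Red(V ∩ O) ≤ dim_L V` is `linearIndependent_of_vGaussRed`.) -/
def GaussLatticeStatement : Prop :=
  ∀ (N : ℕ) [NeZero N] (ℓ : ℕ) [Fact ℓ.Prime] (A : ValuationSubring (AlgebraicClosure ℚ)),
    A.LiesOverPrime ℓ →
    ∀ (V : Submodule (AlgebraicClosure ℚ) ↥(modularFunctionFieldBar N)),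
      FiniteDimensional (AlgebraicClosure ℚ) ↥V →
      ∃ u : Fin (Module.finrank (AlgebraicClosure ℚ) ↥V) → ↥(gaussOBar N A),
        (∀ i, ((u i : ↥(gaussOBar N A)) : ↥(modularFunctionFieldBar N)) ∈ V) ∧
        LinearIndependent (IsLocalRing.ResidueField ↥A) (fun i => gaussRedBar N A (u i))

/-- **(G4)** Under the reduction inputs: `r_* div(y) = div(Red y)` for every `y` in the Gauss ring
with nonzero reduction. -/
def GaussDivStatement : Prop :=
  ∀ (N : ℕ) [NeZero N] (ℓ : ℕ) [Fact ℓ.Prime] (A : ValuationSubring (AlgebraicClosure ℚ)),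
    A.LiesOverPrime ℓ →
    ∀ (r : Place (AlgebraicClosure ℚ) ↥(modularFunctionFieldBar N) →
        Place (IsLocalRing.ResidueField ↥A)
          ↥(modularFunctionFieldFullC (IsLocalRing.ResidueField ↥A) N)),
      IsPlaceReductionModL A N r →
      PrincipalGeneratedByIntegral A (IsLocalRing.residue ↥A) N →
      ∀ gL : ℕ, Fermat.Agent.H27.ESD.RiemannPackage (AlgebraicClosure ℚ)
          ↥(modularFunctionFieldBar N) gL →
      ∀ (u : ↥(gaussOBar N A)), gaussRedBar N A u ≠ 0 →
        ∀ (hk : gaussRedBar N A u ∈ modularFunctionFieldFullC (IsLocalRing.ResidueField ↥A) N)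
          (D : Divisor (AlgebraicClosure ℚ) ↥(modularFunctionFieldBar N)),
          (∀ P, D P = P.ord ((u : ↥(gaussOBar N A)) : ↥(modularFunctionFieldBar N))) →
          ∀ Q, Finsupp.mapDomain r D Q =
            Q.ord (⟨gaussRedBar N A u, hk⟩ :
              ↥(modularFunctionFieldFullC (IsLocalRing.ResidueField ↥A) N))

end

end Fermat.Agent.H66
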