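import Mathlib
import Fermat.Prelude.Def_ModularCurve_ReductionModL
import Fermat.Agent.H66.ESD.GaussInterfaces

/-!
# P-ES / ES-D-GAUSS: basic facts on the Gauss ring of `F_L`, and (G2a)
-/

set_option autoImplicit false
set_option synthInstance.maxHeartbeats 400000
set_option linter.unusedSectionVars false

open AlgebraicCurve ModularCurve

namespace Fermat.Agent.H66

noncomputable section

variable (N : ℕ) (A : ValuationSubring (AlgebraicClosure ℚ))

/-- Integral series in `F_L` lie in the Gauss ring. -/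
theorem mem_gaussOBar_of_eq_vIota {y : ↥(modularFunctionFieldBar N)} {Y : LaurentSeries ↥A}
    (h : (y : LaurentSeries (AlgebraicClosure ℚ)) = vIota A Y) : y ∈ gaussOBar N A := by
  rw [mem_gaussOBar_iff, h]
  exact vIota_mem_vGaussRing A Y

theorem gaussRedBar_of_eq_vIota {y : ↥(modularFunctionFieldBar N)} {Y : LaurentSeries ↥A}
    (h : (y : LaurentSeries (AlgebraicClosure ℚ)) = vIota A Y) :
    gaussRedBar N A ⟨y, mem_gaussOBar_of_eq_vIota N A h⟩ = vRho A Y := by
  rw [gaussRedBar_apply, ← vGaussRed_vIota A Y]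
  congr 1
  exact Subtype.ext h

/-- Elements with nonzero reduction are units of the Gauss ring. -/
theorem inv_mem_gaussOBar {u : ↥(gaussOBar N A)} (hu : gaussRedBar N A u ≠ 0) :
    (u : ↥(modularFunctionFieldBar N))⁻¹ ∈ gaussOBar N A := by
  rw [mem_gaussOBar_iff]
  push_cast
  exact inv_mem_vGaussRing A (x := ⟨_, u.2⟩) hu

theorem gaussRedBar_inv {u : ↥(gaussOBar N A)} (hu : gaussRedBar N A u ≠ 0) :
    gaussRedBar N A ⟨(u : ↥(modularFunctionFieldBar N))⁻¹, inv_mem_gaussOBar N A hu⟩ =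
      (gaussRedBar N A u)⁻¹ := by
  have hu0 : (u : ↥(modularFunctionFieldBar N)) ≠ 0 := by
    intro h
    apply hu
    have : u = 0 := Subtype.ext h
    rw [this, map_zero]
  have h1 : (⟨(u : ↥(modularFunctionFieldBar N))⁻¹, inv_mem_gaussOBar N A hu⟩ :
      ↥(gaussOBar N A)) * u = 1 := by
    apply Subtype.ext
    exact inv_mul_cancel₀ hu0
  have h2 := congrArg (gaussRedBar N A) h1
  rw [map_mul, map_one] at h2
  exact eq_inv_of_mul_eq_one_left h2

theorem coe_algebraMap_bar (c : AlgebraicClosure ℚ) :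
    ((algebraMap (AlgebraicClosure ℚ) ↥(modularFunctionFieldBar N) c :
      ↥(modularFunctionFieldBar N)) : LaurentSeries (AlgebraicClosure ℚ)) =
      algebraMap (AlgebraicClosure ℚ) (LaurentSeries (AlgebraicClosure ℚ)) c := rfl

/-- `O ∩ L = A`. -/
theorem algebraMap_mem_gaussOBar_iff (c : AlgebraicClosure ℚ) :
    algebraMap (AlgebraicClosure ℚ) ↥(modularFunctionFieldBar N) c ∈ gaussOBar N A ↔ c ∈ A := by
  rw [mem_gaussOBar_iff, coe_algebraMap_bar, algebraMap_mem_vGaussRing_iff]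

theorem gaussRedBar_algebraMap {c : AlgebraicClosure ℚ} (hc : c ∈ A) :
    gaussRedBar N A ⟨algebraMap (AlgebraicClosure ℚ) ↥(modularFunctionFieldBar N) c,
        (algebraMap_mem_gaussOBar_iff N A c).mpr hc⟩ =
      algebraMap (IsLocalRing.ResidueField ↥A) (LaurentSeries (IsLocalRing.ResidueField ↥A))
        (IsLocalRing.residue ↥A ⟨c, hc⟩) := by
  rw [gaussRedBar_apply]
  exact vGaussRed_algebraMap A hc

/-- The generators `j(q^d)` of `F_L`. -/
theorem qExpand_jqModC_mem_bar {d : ℕ} [NeZero d] (hd : d ∣ N) :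
    qExpand (AlgebraicClosure ℚ) d (jqModC (AlgebraicClosure ℚ)) ∈ modularFunctionFieldBar N := by
  have h : qExpand (AlgebraicClosure ℚ) d (jqModC (AlgebraicClosure ℚ)) =
      coeffEmb (AlgebraicClosure ℚ) (qExpand ℚ d jq) := by
    rw [coeffEmb, coeffMap_qExpand, ← jqModC_rat, coeffMap_jqModC]
  rw [h]
  exact coeffEmb_mem_laurentBaseChange _ (jqd_mem_full N hd)

theorem qExpand_jqModC_eq_vIota (d : ℕ) [NeZero d] :
    qExpand (AlgebraicClosure ℚ) d (jqModC (AlgebraicClosure ℚ)) =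
      vIota A (qExpand ↥A d (jqModC ↥A)) := by
  rw [vIota, coeffMap_qExpand, coeffMap_jqModC]

theorem vRho_qExpand_jqModC (d : ℕ) [NeZero d] :
    vRho A (qExpand ↥A d (jqModC ↥A)) =
      qExpand (IsLocalRing.ResidueField ↥A) d (jqModC (IsLocalRing.ResidueField ↥A)) := by
  rw [vRho, coeffMap_qExpand, coeffMap_jqModC]

/-- **(G2a)** -/
theorem gaussSurj : GaussSurjStatement := by
  intro N _ ℓ _ A _ y hy
  rw [modularFunctionFieldFullC] at hy
  induction hy using IntermediateField.adjoin_induction with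
  | mem x hx =>
    obtain ⟨d, hd, hdN, rfl⟩ := hx
    have := hd
    exact ⟨⟨⟨_, qExpand_jqModC_mem_bar N hdN⟩,
      mem_gaussOBar_of_eq_vIota N A (qExpand_jqModC_eq_vIota A d)⟩,
      (gaussRedBar_of_eq_vIota N A (qExpand_jqModC_eq_vIota A d)).trans
        (vRho_qExpand_jqModC A d)⟩
  | algebraMap c =>
    obtain ⟨a, rfl⟩ := IsLocalRing.residue_surjective c
    exact ⟨⟨_, (algebraMap_mem_gaussOBar_iff N A (a : AlgebraicClosure ℚ)).mpr a.2⟩,
      gaussRedBar_algebraMap N A a.2⟩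
  | add x y _ _ hx hy =>
    obtain ⟨a, rfl⟩ := hx
    obtain ⟨b, rfl⟩ := hy
    exact ⟨a + b, map_add _ _ _⟩
  | inv x _ hx =>
    obtain ⟨a, rfl⟩ := hx
    by_cases h0 : gaussRedBar N A a = 0
    · exact ⟨0, by rw [h0, inv_zero, map_zero]⟩
    · exact ⟨_, gaussRedBar_inv N A h0⟩
  | mul x y _ _ hx hy =>
    obtain ⟨a, rfl⟩ := hx
    obtain ⟨b, rfl⟩ := hy
    exact ⟨a * b, map_mul _ _ _⟩

end

end Fermat.Agent.H66
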