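import Mathlib
import Fermat.Prelude.Def_ModularCurve_LaurentCoeff
import Fermat.Agent.H66.ESD.GaussRing

/-!
# Unconditional Gauss normalisation, series level (P-ES, ES-D-GAUSS (G1), Q-GNF)

`L` a field, `A` a valuation subring of `L`.

* `exists_finite_positions` : for finitely many integer Laurent series there is a finite set `T`
  of positions such that every column of coefficients is a `ℤ`-combination of the columns at
  the positions of `T` (`ℤ^p` is Noetherian).
* `exists_normalisation_of_sum` : every nonzero element of the `L`-span of the integer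
  Laurent series is `c · ι Y` with `c ≠ 0`, `Y ∈ A((q))` and `ρ Y ≠ 0`.
* `ratioSubfield R` : the subfield of ratios of elements of a subring `R` of a field.
-/

set_option autoImplicit false
set_option linter.unusedSectionVars false

noncomputable section

namespace Fermat.Agent.H66

open ModularCurve

/-- **Finite positions.** -/
theorem exists_finite_positions (s : Finset (LaurentSeries ℤ)) :
    ∃ T : Finset ℤ, ∀ n : ℤ, ∃ z : ℤ → ℤ,
      ∀ x ∈ s, x.coeff n = ∑ t ∈ T, z t * x.coeff t := by
  classical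
  let col : ℤ → (↥s → ℤ) := fun n x => x.1.coeff n
  have hfg : (Submodule.span ℤ (Set.range col)).FG := IsNoetherian.noetherian _
  obtain ⟨S', hS'sub, hS'⟩ := (Submodule.fg_span_iff_fg_span_finset_subset _).mp hfg
  have hex : ∀ v ∈ S', ∃ n, col n = v := fun v hv => hS'sub hv
  choose! pre hpre using hex
  refine ⟨S'.image pre, fun n => ?_⟩
  have hn : col n ∈ Submodule.span ℤ (S' : Set (↥s → ℤ)) :=
    hS' ▸ Submodule.subset_span ⟨n, rfl⟩
  have hn' : col n ∈ Submodule.span ℤ (col '' ((S'.image pre : Finset ℤ) : Set ℤ)) := by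
    refine Submodule.span_mono ?_ hn
    intro v hv
    exact ⟨pre v, Finset.mem_coe.mpr (Finset.mem_image_of_mem _ hv), hpre v hv⟩
  rw [Finsupp.mem_span_image_iff_linearCombination] at hn'
  obtain ⟨l, hl, hln⟩ := hn'
  refine ⟨fun t => l t, fun x hx => ?_⟩
  have h1 := congrFun hln ⟨x, hx⟩
  rw [Finsupp.linearCombination_apply, Finsupp.sum, Finset.sum_apply] at h1
  have h2 : ∀ t, (l t • col t) ⟨x, hx⟩ = l t * x.coeff t := fun t => rfl
  simp only [h2] at h1
  rw [show x.coeff n = col n ⟨x, hx⟩ from rfl, ← h1]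
  refine Finset.sum_subset ?_ ?_
  · intro t ht
    exact Finset.mem_coe.mp ((Finsupp.mem_supported ℤ l).mp hl ht)
  · intro t _ ht
    rw [Finsupp.notMem_support_iff.mp ht, zero_mul]

variable {L : Type*} [Field L] (A : ValuationSubring L)

/-- The coefficient maps on `L((q))`, as additive maps. -/
def coeffAdd (L : Type*) [Field L] (n : ℤ) : LaurentSeries L →+ L where
  toFun x := x.coeff n
  map_zero' := rfl
  map_add' _ _ := rfl

@[simp] theorem coeffAdd_apply (n : ℤ) (x : LaurentSeries L) : coeffAdd L n x = x.coeff n := rfl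

/-- In a finite family of elements of `L`, not all zero, there is a nonzero one dividing all
others in `A`. -/
theorem exists_min_val {ι : Type*} (T : Finset ι) (b : ι → L) (hb : ∃ t ∈ T, b t ≠ 0) :
    ∃ t₀ ∈ T, b t₀ ≠ 0 ∧ ∀ t ∈ T, (b t₀)⁻¹ * b t ∈ A := by
  classical
  obtain ⟨t₁, ht₁, hbt₁⟩ := hb
  obtain ⟨t₀, ht₀, hmax⟩ := Finset.exists_max_image T (fun t => A.valuation (b t)) ⟨t₁, ht₁⟩
  have h0 : b t₀ ≠ 0 := by
    intro h
    have h1 := hmax t₁ ht₁
    rw [h, map_zero] at h1
    exact hbt₁ ((map_eq_zero _).mp (le_antisymm h1 zero_le))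
  refine ⟨t₀, ht₀, h0, fun t ht => ?_⟩
  rw [← A.valuation_le_one_iff, map_mul, map_inv₀]
  have hpos : 0 < A.valuation (b t₀) := by
    rw [zero_lt_iff]
    exact (map_ne_zero _).mpr h0
  exact (inv_mul_le_one₀ hpos).mpr (hmax t ht)

/-- **Normalisation in the span of the integer series.** -/
theorem exists_normalisation_of_sum {a : LaurentSeries L} (f : LaurentSeries ℤ →₀ L)
    (ha : a = f.sum fun x r =>
      algebraMap L (LaurentSeries L) r * coeffMap (Int.castRingHom L) x)
    (ha0 : a ≠ 0) :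
    ∃ (c : L) (Y : LaurentSeries ↥A), c ≠ 0 ∧ vRho A Y ≠ 0 ∧
      a = algebraMap L (LaurentSeries L) c * vIota A Y := by
  classical
  obtain ⟨T, hT⟩ := exists_finite_positions f.support
  -- coefficients of `a`
  have hcoeff : ∀ n, a.coeff n = ∑ x ∈ f.support, f x * ((x.coeff n : ℤ) : L) := by
    intro n
    rw [← coeffAdd_apply, ha, Finsupp.sum, map_sum]
    refine Finset.sum_congr rfl fun x _ => ?_
    rw [coeffAdd_apply, coeff_algebraMap_mul]
    rfl
  -- the key identity
  have hkey : ∀ n, ∃ z : ℤ → ℤ, a.coeff n = ∑ t ∈ T, (z t : L) * a.coeff t := by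
    intro n
    obtain ⟨z, hz⟩ := hT n
    refine ⟨z, ?_⟩
    rw [hcoeff n]
    simp only [hcoeff, Finset.mul_sum]
    rw [Finset.sum_comm]
    refine Finset.sum_congr rfl fun x hx => ?_
    rw [hz x hx]
    push_cast
    rw [Finset.mul_sum]
    refine Finset.sum_congr rfl fun t _ => ?_
    ring
  -- some coefficient at `T` is nonzero
  have hne : ∃ t ∈ T, a.coeff t ≠ 0 := by
    by_contra hcon
    push Not at hcon
    apply ha0
    refine HahnSeries.ext (funext fun n => ?_)
    obtain ⟨z, hz⟩ := hkey n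
    rw [hz]
    refine Finset.sum_eq_zero fun t ht => ?_
    rw [hcon t ht, mul_zero]
  obtain ⟨t₀, ht₀, hc0, hdiv⟩ := exists_min_val A T (fun t => a.coeff t) hne
  -- the normalised series
  have hint : ∀ n, (algebraMap L (LaurentSeries L) (a.coeff t₀)⁻¹ * a).coeff n ∈ A := by
    intro n
    rw [coeff_algebraMap_mul]
    obtain ⟨z, hz⟩ := hkey n
    rw [hz, Finset.mul_sum]
    refine sum_mem fun t ht => ?_
    have h1 : (a.coeff t₀)⁻¹ * ((z t : L) * a.coeff t) = (z t : L) * ((a.coeff t₀)⁻¹ * a.coeff t) := by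
      ring
    rw [h1]
    exact mul_mem (intCast_mem A (z t)) (hdiv t ht)
  obtain ⟨Y, hY⟩ := (mem_range_vIota_iff A _).mpr hint
  refine ⟨a.coeff t₀, Y, hc0, ?_, ?_⟩
  · rw [vRho_ne_zero_iff]
    refine ⟨t₀, ?_⟩
    have h1 : ((Y.coeff t₀ : ↥A) : L) = 1 := by
      rw [← vIota_coeff, hY, coeff_algebraMap_mul, inv_mul_cancel₀ hc0]
    have h2 : Y.coeff t₀ = 1 := Subtype.ext h1
    rw [h2]
    exact isUnit_one
  · rw [hY, ← mul_assoc, ← map_mul, mul_inv_cancel₀ hc0, map_one, one_mul]

end Fermat.Agent.H66
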