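import Mathlib
import Fermat.Prelude.Def_ModularCurve_ReductionModL
import Fermat.Agent.H66.ESD.GaussNormCore
import Fermat.Agent.H66.ESD.GaussBar
import Fermat.Agent.H22.ES.Interfaces

/-!
# Unconditional Gauss normal form (P-ES: row 303 (G1) = row 363 Q-GNF)

* `ratioSubfield R` : the subfield of ratios of elements of a subring `R` of a field;
* `exists_gnf` : for ANY field `L` of characteristic `0` and ANY valuation subring `A` of `L`:
  every nonzero `f ∈ F_L = laurentBaseChange L (modularFunctionFieldFull N)` satisfies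
  `f * ι b = c * ι a` with `c ≠ 0`, `a b ∈ A((q))`, `ι a, ι b ∈ F_L`, `ρ a ≠ 0`, `ρ b ≠ 0`;
* `gaussNormalForm N : Fermat.Agent.H22.ES.GaussNormalFormStatement N`;
* `gaussNorm : GaussNormStatement`  (G1).
-/

set_option autoImplicit false
set_option synthInstance.maxHeartbeats 400000
set_option linter.unusedSectionVars false

open AlgebraicCurve ModularCurve

namespace Fermat.Agent.H66

noncomputable section

/-- The subfield of ratios of elements of a subring `R` of a field `E`. -/
def ratioSubfield {E : Type*} [Field E] (R : Subring E) : Subfield E where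
  carrier := {y | ∃ a ∈ R, ∃ b ∈ R, b ≠ 0 ∧ y * b = a}
  mul_mem' := by
    rintro x y ⟨a, ha, b, hb, hb0, hx⟩ ⟨c, hc, d, hd, hd0, hy⟩
    refine ⟨a * c, R.mul_mem ha hc, b * d, R.mul_mem hb hd, mul_ne_zero hb0 hd0, ?_⟩
    rw [← hx, ← hy]
    ring
  one_mem' := ⟨1, R.one_mem, 1, R.one_mem, one_ne_zero, one_mul 1⟩
  add_mem' := by
    rintro x y ⟨a, ha, b, hb, hb0, hx⟩ ⟨c, hc, d, hd, hd0, hy⟩
    refine ⟨a * d + c * b, R.add_mem (R.mul_mem ha hd) (R.mul_mem hc hb), b * d,
      R.mul_mem hb hd, mul_ne_zero hb0 hd0, ?_⟩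
    rw [← hx, ← hy]
    ring
  zero_mem' := ⟨0, R.zero_mem, 1, R.one_mem, one_ne_zero, zero_mul 1⟩
  neg_mem' := by
    rintro x ⟨a, ha, b, hb, hb0, hx⟩
    exact ⟨-a, R.neg_mem ha, b, hb, hb0, by rw [← hx, neg_mul]⟩
  inv_mem' := by
    rintro y ⟨a, ha, b, hb, hb0, h⟩
    by_cases ha0 : a = 0
    · have hy : y = 0 := by
        rcases mul_eq_zero.mp (h.trans ha0) with h1 | h1
        · exact h1
        · exact absurd h1 hb0
      rw [hy, inv_zero]
      exact ⟨0, R.zero_mem, 1, R.one_mem, one_ne_zero, zero_mul 1⟩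
    · have hy : y ≠ 0 := by
        rintro rfl
        exact ha0 (by rw [← h, zero_mul])
      refine ⟨b, hb, a, ha, ha0, ?_⟩
      rw [← h, ← mul_assoc, inv_mul_cancel₀ hy, one_mul]

theorem mem_ratioSubfield_iff {E : Type*} [Field E] (R : Subring E) (y : E) :
    y ∈ ratioSubfield R ↔ ∃ a ∈ R, ∃ b ∈ R, b ≠ 0 ∧ y * b = a := Iff.rfl

theorem mem_ratioSubfield_of_mem {E : Type*} [Field E] (R : Subring E) {y : E} (hy : y ∈ R) :
    y ∈ ratioSubfield R :=
  ⟨y, hy, 1, R.one_mem, one_ne_zero, mul_one y⟩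

/-! ### The rational function field `F₀` -/

/-- Integer series lying in `F₀`. -/
def intRingRat (N : ℕ) : Subring (LaurentSeries ℚ) :=
  (coeffMap (Int.castRingHom ℚ)).range ⊓ (modularFunctionFieldFull N).toSubfield.toSubring

theorem mem_intRingRat_iff (N : ℕ) (x : LaurentSeries ℚ) :
    x ∈ intRingRat N ↔
      (∃ a : LaurentSeries ℤ, coeffMap (Int.castRingHom ℚ) a = x) ∧
        x ∈ modularFunctionFieldFull N := Iff.rfl

theorem full_le_ratioSubfield (N : ℕ) :
    (modularFunctionFieldFull N).toSubfield ≤ ratioSubfield (intRingRat N) := by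
  show (IntermediateField.adjoin ℚ (divisorExpansions N)).toSubfield ≤ _
  refine IntermediateField.adjoin_le_subfield ℚ _ ?_ ?_
  · rintro _ ⟨r, rfl⟩
    refine ⟨algebraMap ℚ (LaurentSeries ℚ) (r.num : ℚ), ?_,
      algebraMap ℚ (LaurentSeries ℚ) (r.den : ℚ), ?_, ?_, ?_⟩
    · refine ⟨⟨(r.num : LaurentSeries ℤ), ?_⟩, IntermediateField.algebraMap_mem _ _⟩
      rw [map_intCast, map_intCast]
    · refine ⟨⟨(r.den : LaurentSeries ℤ), ?_⟩, IntermediateField.algebraMap_mem _ _⟩
      rw [map_natCast, map_natCast]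
    · rw [Ne, map_eq_zero]
      exact_mod_cast r.den_nz
    · rw [← map_mul]
      congr 1
      exact Rat.mul_den_eq_num r
  · rintro _ ⟨d, hd, hdN, rfl⟩
    have := hd
    refine mem_ratioSubfield_of_mem _ ⟨⟨qExpand ℤ d (jqModC ℤ), ?_⟩, jqd_mem_full N hdN⟩
    rw [coeffMap_qExpand, coeffMap_jqModC, jqModC_rat]

/-! ### The base change `F_L` -/

variable (L : Type*) [Field L] [Algebra ℚ L]

/-- The `L`-span of the integer series, as a subalgebra of `L((q))`. -/
def intSpanAlg : Subalgebra L (LaurentSeries L) :=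
  Algebra.adjoin L (Set.range (coeffMap (Int.castRingHom L)))

theorem exists_finsupp_of_mem_intSpanAlg {x : LaurentSeries L} (hx : x ∈ intSpanAlg L) :
    ∃ f : LaurentSeries ℤ →₀ L, x = f.sum fun y r =>
      algebraMap L (LaurentSeries L) r * coeffMap (Int.castRingHom L) y := by
  have h := Algebra.adjoin_eq_span L (Set.range (coeffMap (Int.castRingHom L)))
  have hx' : x ∈ Subalgebra.toSubmodule (Algebra.adjoin L
    (Set.range (coeffMap (Int.castRingHom L)))) := hx
  have h2 : (Submonoid.closure (Set.range (coeffMap (Int.castRingHom L))) :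
      Set (LaurentSeries L)) = Set.range (coeffMap (Int.castRingHom L)) := by
    have h3 : Set.range (coeffMap (Int.castRingHom L)) =
      ((MonoidHom.mrange ((coeffMap (Int.castRingHom L) :
        LaurentSeries ℤ →+* LaurentSeries L) : LaurentSeries ℤ →* LaurentSeries L) :
          Submonoid (LaurentSeries L)) : Set (LaurentSeries L)) := by
      ext x
      simp
    rw [h3, Submonoid.closure_eq]
  rw [h, h2] at hx'
  let _ : Module L (LaurentSeries L) := Algebra.toModule
  obtain ⟨f, hf⟩ := Finsupp.mem_span_range_iff_exists_finsupp.mp hx'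
  refine ⟨f, ?_⟩
  rw [← hf]
  exact Finsupp.sum_congr fun y _ => Algebra.smul_def _ _

theorem coeffEmb_coeffMap_int (a : LaurentSeries ℤ) :
    coeffEmb L (coeffMap (Int.castRingHom ℚ) a) = coeffMap (Int.castRingHom L) a := by
  rw [coeffEmb, coeffMap_coeffMap]
  have h : (algebraMap ℚ L).comp (Int.castRingHom ℚ) = Int.castRingHom L :=
    RingHom.ext_int _ _
  rw [h]

/-- Elements of `F_L` in the `L`-span of the integer series. -/
def intRingBase (N : ℕ) : Subring (LaurentSeries L) :=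
  (intSpanAlg L).toSubring ⊓
    (laurentBaseChange L (modularFunctionFieldFull N)).toSubfield.toSubring

theorem mem_intRingBase_iff (N : ℕ) (x : LaurentSeries L) :
    x ∈ intRingBase L N ↔
      x ∈ intSpanAlg L ∧ x ∈ laurentBaseChange L (modularFunctionFieldFull N) := Iff.rfl

theorem base_le_ratioSubfield (N : ℕ) :
    (laurentBaseChange L (modularFunctionFieldFull N)).toSubfield ≤
      ratioSubfield (intRingBase L N) := by
  show (IntermediateField.adjoin L
    (⇑(coeffEmb L) '' ((modularFunctionFieldFull N : IntermediateField ℚ (LaurentSeries ℚ)) :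
      Set (LaurentSeries ℚ)))).toSubfield ≤ _
  refine IntermediateField.adjoin_le_subfield L _ ?_ ?_
  · rintro _ ⟨c, rfl⟩
    exact mem_ratioSubfield_of_mem _
      ⟨Subalgebra.algebraMap_mem _ c, IntermediateField.algebraMap_mem _ c⟩
  · rintro _ ⟨x, hx, rfl⟩
    obtain ⟨a, ⟨⟨a', rfl⟩, haF⟩, b, ⟨⟨b', rfl⟩, hbF⟩, hb0, h⟩ := full_le_ratioSubfield N hx
    refine ⟨coeffEmb L (coeffMap (Int.castRingHom ℚ) a'), ⟨?_, ?_⟩,
      coeffEmb L (coeffMap (Int.castRingHom ℚ) b'), ⟨?_, ?_⟩, ?_, ?_⟩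
    · rw [coeffEmb_coeffMap_int]
      exact Algebra.subset_adjoin ⟨a', rfl⟩
    · exact coeffEmb_mem_laurentBaseChange L haF
    · rw [coeffEmb_coeffMap_int]
      exact Algebra.subset_adjoin ⟨b', rfl⟩
    · exact coeffEmb_mem_laurentBaseChange L hbF
    · rw [Ne, map_eq_zero]
      exact hb0
    · rw [← map_mul, h]

variable {L}

/-- **Gauss normal form**, for any field `L` of characteristic `0` and any valuation subring. -/
theorem exists_gnf (N : ℕ) (A : ValuationSubring L) {f : LaurentSeries L}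
    (hf : f ∈ laurentBaseChange L (modularFunctionFieldFull N)) (hf0 : f ≠ 0) :
    ∃ (c : L) (a b : LaurentSeries ↥A), c ≠ 0 ∧
      vIota A a ∈ laurentBaseChange L (modularFunctionFieldFull N) ∧
      vIota A b ∈ laurentBaseChange L (modularFunctionFieldFull N) ∧
      vRho A a ≠ 0 ∧ vRho A b ≠ 0 ∧
      f * vIota A b = algebraMap L (LaurentSeries L) c * vIota A a := by
  obtain ⟨x, ⟨hxS, hxF⟩, y, ⟨hyS, hyF⟩, hy0, h⟩ := base_le_ratioSubfield L N hf
  have hx0 : x ≠ 0 := by
    rw [← h]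
    exact mul_ne_zero hf0 hy0
  obtain ⟨fx, hfx⟩ := exists_finsupp_of_mem_intSpanAlg L hxS
  obtain ⟨fy, hfy⟩ := exists_finsupp_of_mem_intSpanAlg L hyS
  obtain ⟨cx, X, hcx, hX, hxX⟩ := exists_normalisation_of_sum A fx hfx hx0
  obtain ⟨cy, Y, hcy, hY, hyY⟩ := exists_normalisation_of_sum A fy hfy hy0
  have hXF : vIota A X ∈ laurentBaseChange L (modularFunctionFieldFull N) := by
    have h1 : vIota A X = algebraMap L (LaurentSeries L) cx⁻¹ * x := by
      rw [hxX, ← mul_assoc, ← map_mul, inv_mul_cancel₀ hcx, map_one, one_mul]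
    rw [h1]
    exact mul_mem (IntermediateField.algebraMap_mem _ _) hxF
  have hYF : vIota A Y ∈ laurentBaseChange L (modularFunctionFieldFull N) := by
    have h1 : vIota A Y = algebraMap L (LaurentSeries L) cy⁻¹ * y := by
      rw [hyY, ← mul_assoc, ← map_mul, inv_mul_cancel₀ hcy, map_one, one_mul]
    rw [h1]
    exact mul_mem (IntermediateField.algebraMap_mem _ _) hyF
  refine ⟨cy⁻¹ * cx, X, Y, mul_ne_zero (inv_ne_zero hcy) hcx, hXF, hYF, hX, hY, ?_⟩
  have h2 : f * vIota A Y = algebraMap L (LaurentSeries L) cy⁻¹ * (f * y) := by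
    rw [hyY, ← mul_assoc, mul_comm (algebraMap L (LaurentSeries L) cy⁻¹) f, mul_assoc f,
      ← mul_assoc (algebraMap L (LaurentSeries L) cy⁻¹), ← map_mul, inv_mul_cancel₀ hcy,
      map_one, one_mul]
  rw [h2, h, hxX, ← mul_assoc, ← map_mul]

/-- **Q-GNF** (row 363), in the exact shape of `Fermat.Agent.H22.ES`; unconditional. -/
theorem gaussNormalForm (N : ℕ) : Fermat.Agent.H22.ES.GaussNormalFormStatement N := by
  intro A ℓ _ _ f hf0
  have hf0' : (f : LaurentSeries (AlgebraicClosure ℚ)) ≠ 0 := fun h => hf0 (Subtype.ext h)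
  obtain ⟨c, a, b, hc, ha, hb, hra, hrb, h⟩ := exists_gnf N A f.2 hf0'
  exact ⟨c, a, b, ha, hb, hc, hra, hrb, Subtype.ext h⟩

theorem gaussRedBar_eq (N : ℕ) (A : ValuationSubring (AlgebraicClosure ℚ))
    (u : ↥(gaussOBar N A)) (a b : LaurentSeries ↥A) (hb : vRho A b ≠ 0)
    (h : ((u : ↥(modularFunctionFieldBar N)) : LaurentSeries (AlgebraicClosure ℚ)) * vIota A b =
      vIota A a) :
    gaussRedBar N A u = vRho A a / vRho A b := by
  rw [gaussRedBar_apply]
  exact vGaussRed_eq A _ a b hb h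

/-- **(G1)** (row 303): every nonzero element of `F_L` is a constant times a unit of the Gauss
ring; unconditional. -/
theorem gaussNorm : GaussNormStatement := by
  intro N _ ℓ _ A _ y hy0
  have hy0' : (y : LaurentSeries (AlgebraicClosure ℚ)) ≠ 0 := fun h => hy0 (Subtype.ext h)
  obtain ⟨c, a, b, hc, ha, hb, hra, hrb, h⟩ := exists_gnf N A y.2 hy0'
  have hmul : ((algebraMap (AlgebraicClosure ℚ) ↥(modularFunctionFieldBar N) c⁻¹ * y :
      ↥(modularFunctionFieldBar N)) : LaurentSeries (AlgebraicClosure ℚ)) * vIota A b =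
      vIota A a := by
    have hC : algebraMap (AlgebraicClosure ℚ) (LaurentSeries (AlgebraicClosure ℚ)) c ≠ 0 := by
      rw [Ne, map_eq_zero]
      exact hc
    push_cast
    rw [mul_assoc, h, ← mul_assoc, inv_mul_cancel₀ hC, one_mul]
  have hmem : algebraMap (AlgebraicClosure ℚ) ↥(modularFunctionFieldBar N) c⁻¹ * y ∈
      gaussOBar N A := by
    rw [mem_gaussOBar_iff, mem_vGaussRing_iff]
    exact ⟨a, b, hrb, hmul⟩
  refine ⟨c, ⟨_, hmem⟩, hc, ?_, ?_⟩
  · have h1 := gaussRedBar_eq N A ⟨_, hmem⟩ a b hrb hmul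
    rw [h1]
    exact div_ne_zero hra hrb
  · show y = c • (algebraMap (AlgebraicClosure ℚ) ↥(modularFunctionFieldBar N) c⁻¹ * y)
    rw [Algebra.smul_def, ← mul_assoc, ← map_mul, mul_inv_cancel₀ hc, map_one, one_mul]

end

end Fermat.Agent.H66
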