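import Mathlib
import Fermat.Prelude.Def_ModularCurve_X0ModL
import Fermat.Agent.H66.ESD.GaussNormCore
import Fermat.Agent.H74.IgusaPolyJ

/-!
# Gauss normal form at level one, with range (P-ES, ES-D-GAUSS)

`L` a field, `A` a valuation subring of `L`, `k` its residue field.  Every nonzero element of
`L(j) ⊆ L((q))` is `c · ι a / ι b` with `a b ∈ A((q))` whose reductions are NONZERO elements of
`k(j̄) ⊆ k((q))`.
-/

set_option autoImplicit false
set_option linter.unusedSectionVars false

noncomputable section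

namespace Fermat.Agent.H66

open ModularCurve Polynomial

variable {L : Type*} [Field L] (A : ValuationSubring L)

/-- Evaluation of a polynomial over `A` at `j`, as an integral Laurent series. -/
def evalJ (P : (↥A)[X]) : LaurentSeries ↥A :=
  Polynomial.eval₂ (HahnSeries.C : ↥A →+* LaurentSeries ↥A) (jqModC ↥A) P

theorem vIota_comp_C :
    (vIota A).comp (HahnSeries.C : ↥A →+* LaurentSeries ↥A) =
      (algebraMap L (LaurentSeries L)).comp A.subtype := by
  refine RingHom.ext fun c => ?_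
  exact (algebraMap_eq_vIota A c).symm

theorem vRho_comp_C :
    (vRho A).comp (HahnSeries.C : ↥A →+* LaurentSeries ↥A) =
      (algebraMap (IsLocalRing.ResidueField ↥A) (LaurentSeries (IsLocalRing.ResidueField ↥A))).comp
        (IsLocalRing.residue ↥A) := by
  refine RingHom.ext fun c => ?_
  exact vRho_C A c

theorem vIota_evalJ (P : (↥A)[X]) :
    vIota A (evalJ A P) = Polynomial.aeval (jqModC L) (P.map A.subtype) := by
  rw [evalJ, Polynomial.hom_eval₂, vIota_comp_C, Polynomial.aeval_def, Polynomial.eval₂_map]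
  congr 1
  exact coeffMap_jqModC A.subtype

theorem vRho_evalJ (P : (↥A)[X]) :
    vRho A (evalJ A P) =
      Polynomial.aeval (jqModC (IsLocalRing.ResidueField ↥A)) (P.map (IsLocalRing.residue ↥A)) := by
  rw [evalJ, Polynomial.hom_eval₂, vRho_comp_C, Polynomial.aeval_def, Polynomial.eval₂_map]
  congr 1
  exact coeffMap_jqModC (IsLocalRing.residue ↥A)

/-- Normalisation of a nonzero polynomial: `P = c · P₁` with `P₁ ∈ A[X]` having a coefficient
equal to `1`. -/
theorem exists_poly_normalisation {P : L[X]} (hP : P ≠ 0) :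
    ∃ (c : L) (P₁ : (↥A)[X]), c ≠ 0 ∧ (∃ i, P₁.coeff i = 1) ∧
      P = Polynomial.C c * P₁.map A.subtype := by
  classical
  have hne : ∃ i ∈ P.support, P.coeff i ≠ 0 := by
    obtain ⟨i, hi⟩ := Polynomial.support_nonempty.mpr hP
    exact ⟨i, hi, Polynomial.mem_support_iff.mp hi⟩
  obtain ⟨i₀, -, hc0, hdiv⟩ := exists_min_val A P.support (fun i => P.coeff i) hne
  have hall : ∀ i, (P.coeff i₀)⁻¹ * P.coeff i ∈ A := by
    intro i
    by_cases hi : i ∈ P.support
    · exact hdiv i hi
    · rw [Polynomial.notMem_support_iff.mp hi, mul_zero]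
      exact zero_mem A
  have hlift : Polynomial.C (P.coeff i₀)⁻¹ * P ∈ Polynomial.lifts A.subtype := by
    rw [Polynomial.lifts_iff_coeff_lifts]
    intro i
    rw [Polynomial.coeff_C_mul]
    exact ⟨⟨_, hall i⟩, rfl⟩
  obtain ⟨P₁, hP₁⟩ := (Polynomial.mem_lifts _).mp hlift
  refine ⟨P.coeff i₀, P₁, hc0, ⟨i₀, ?_⟩, ?_⟩
  · apply Subtype.ext
    have h1 := congrArg (fun Q : L[X] => Q.coeff i₀) hP₁
    simp only [Polynomial.coeff_map, Polynomial.coeff_C_mul] at h1
    rw [inv_mul_cancel₀ hc0] at h1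
    exact h1
  · rw [hP₁, ← mul_assoc, ← Polynomial.C_mul, mul_inv_cancel₀ hc0, Polynomial.C_1, one_mul]

/-- The value at `j` of a nonzero polynomial is `c · ι Y` with `ρ Y` a nonzero element of
`k[j̄]`. -/
theorem exists_normalisation_aeval {P : L[X]} (hP : P ≠ 0) :
    ∃ (c : L) (P₁ : (↥A)[X]), c ≠ 0 ∧ vRho A (evalJ A P₁) ≠ 0 ∧
      Polynomial.aeval (jqModC L) P = algebraMap L (LaurentSeries L) c * vIota A (evalJ A P₁) := by
  obtain ⟨c, P₁, hc, ⟨i, hi⟩, hPP⟩ := exists_poly_normalisation A hP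
  refine ⟨c, P₁, hc, ?_, ?_⟩
  · rw [vRho_evalJ]
    intro h0
    have h1 : P₁.map (IsLocalRing.residue ↥A) = 0 :=
      Fermat.Agent.H74.aeval_jq_injective (IsLocalRing.ResidueField ↥A)
        (h0.trans (map_zero _).symm)
    have h2 := congrArg (fun Q => Polynomial.coeff Q i) h1
    simp only [Polynomial.coeff_map, Polynomial.coeff_zero, hi, map_one] at h2
    exact one_ne_zero h2
  · rw [vIota_evalJ, hPP, map_mul, Polynomial.aeval_C]

/-- `ρ (evalJ P₁)` lies in `k(j̄)`. -/
theorem vRho_evalJ_mem (P₁ : (↥A)[X]) :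
    vRho A (evalJ A P₁) ∈ IntermediateField.adjoin (IsLocalRing.ResidueField ↥A)
      {jqModC (IsLocalRing.ResidueField ↥A)} := by
  rw [vRho_evalJ]
  have h := IntermediateField.algebra_adjoin_le_adjoin (IsLocalRing.ResidueField ↥A)
    ({jqModC (IsLocalRing.ResidueField ↥A)} : Set (LaurentSeries (IsLocalRing.ResidueField ↥A)))
  apply h
  rw [Algebra.adjoin_singleton_eq_range_aeval]
  exact ⟨_, rfl⟩

/-- **Gauss normal form at level one, with range.** -/
theorem exists_gnf_levelOne {f : LaurentSeries L}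
    (hf : f ∈ IntermediateField.adjoin L {jqModC L}) (hf0 : f ≠ 0) :
    ∃ (c : L) (a b : LaurentSeries ↥A), c ≠ 0 ∧ vRho A a ≠ 0 ∧ vRho A b ≠ 0 ∧
      vRho A a ∈ IntermediateField.adjoin (IsLocalRing.ResidueField ↥A)
        {jqModC (IsLocalRing.ResidueField ↥A)} ∧
      vRho A b ∈ IntermediateField.adjoin (IsLocalRing.ResidueField ↥A)
        {jqModC (IsLocalRing.ResidueField ↥A)} ∧
      f * vIota A b = algebraMap L (LaurentSeries L) c * vIota A a := by
  obtain ⟨r, s, hrs⟩ := (IntermediateField.mem_adjoin_simple_iff L f).mp hf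
  have hs0 : Polynomial.aeval (jqModC L) s ≠ 0 := by
    intro h
    rw [h, div_zero] at hrs
    exact hf0 hrs
  have hr0 : Polynomial.aeval (jqModC L) r ≠ 0 := by
    intro h
    rw [h, zero_div] at hrs
    exact hf0 hrs
  have hr : r ≠ 0 := by
    rintro rfl
    exact hr0 (map_zero _)
  have hs : s ≠ 0 := by
    rintro rfl
    exact hs0 (map_zero _)
  obtain ⟨cr, R, hcr, hR, hrR⟩ := exists_normalisation_aeval A hr
  obtain ⟨cs, S, hcs, hS, hsS⟩ := exists_normalisation_aeval A hs
  refine ⟨cs⁻¹ * cr, evalJ A R, evalJ A S, mul_ne_zero (inv_ne_zero hcs) hcr, hR, hS,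
    vRho_evalJ_mem A R, vRho_evalJ_mem A S, ?_⟩
  have hCs : algebraMap L (LaurentSeries L) cs ≠ 0 := by
    rw [Ne, map_eq_zero]
    exact hcs
  have h1 : vIota A (evalJ A S) =
      (algebraMap L (LaurentSeries L) cs)⁻¹ * Polynomial.aeval (jqModC L) s := by
    rw [hsS, ← mul_assoc, inv_mul_cancel₀ hCs, one_mul]
  rw [h1, hrs, map_mul, map_inv₀, mul_assoc, ← hrR]
  field_simp

end Fermat.Agent.H66
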