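import Mathlib
import Fermat.Prelude.Def_ModularCurve_X0ModL
import Fermat.Agent.H66.ESD.GaussLevelOne

/-!
# The fundamental inequality for the Gauss valuation over `L(j)` (P-ES, ES-D-GAUSS)

Elements of the Gauss ring whose reductions are linearly independent over `k(j̄)` are linearly
independent over `L(j)`.
-/

set_option autoImplicit false
set_option linter.unusedSectionVars false

noncomputable section

namespace Fermat.Agent.H66

open ModularCurve

variable {L : Type*} [Field L] (A : ValuationSubring L)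

/-- An element of `L(j)`, divided by the constant of its Gauss normal form, lies in the Gauss
ring, and its reduction is a nonzero element of `k(j̄)`. -/
theorem exists_unit_levelOne {f : LaurentSeries L}
    (hf : f ∈ IntermediateField.adjoin L {jqModC L}) (hf0 : f ≠ 0) :
    ∃ (c : L) (w : vGaussRing A), c ≠ 0 ∧
      f = algebraMap L (LaurentSeries L) c * (w : LaurentSeries L) ∧
      vGaussRed A w ≠ 0 ∧
      vGaussRed A w ∈ IntermediateField.adjoin (IsLocalRing.ResidueField ↥A)
        {jqModC (IsLocalRing.ResidueField ↥A)} := by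
  obtain ⟨c, a, b, hc, ha, hb, hak, hbk, h⟩ := exists_gnf_levelOne A hf hf0
  have hC : algebraMap L (LaurentSeries L) c ≠ 0 := by
    rw [Ne, map_eq_zero]
    exact hc
  have hmul : ((algebraMap L (LaurentSeries L) c)⁻¹ * f) * vIota A b = vIota A a := by
    rw [mul_assoc, h, ← mul_assoc, inv_mul_cancel₀ hC, one_mul]
  have hmem : (algebraMap L (LaurentSeries L) c)⁻¹ * f ∈ vGaussRing A :=
    (mem_vGaussRing_iff A _).mpr ⟨a, b, hb, hmul⟩
  refine ⟨c, ⟨_, hmem⟩, hc, ?_, ?_, ?_⟩
  · show f = algebraMap L (LaurentSeries L) c * ((algebraMap L (LaurentSeries L) c)⁻¹ * f)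
    rw [← mul_assoc, mul_inv_cancel₀ hC, one_mul]
  · rw [vGaussRed_eq A ⟨_, hmem⟩ a b hb hmul]
    exact div_ne_zero ha hb
  · rw [vGaussRed_eq A ⟨_, hmem⟩ a b hb hmul]
    exact div_mem hak hbk

/-- **Fundamental inequality.**  Elements of the Gauss ring with `k(j̄)`-linearly independent
reductions are `L(j)`-linearly independent. -/
theorem linearIndependent_of_vGaussRed_levelOne {ι : Type*} [Fintype ι] (u : ι → vGaussRing A)
    (h : LinearIndependent
      ↥(IntermediateField.adjoin (IsLocalRing.ResidueField ↥A)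
        {jqModC (IsLocalRing.ResidueField ↥A)})
      (fun i => vGaussRed A (u i))) :
    LinearIndependent ↥(IntermediateField.adjoin L {jqModC L})
      (fun i => ((u i : vGaussRing A) : LaurentSeries L)) := by
  classical
  rw [Fintype.linearIndependent_iff] at h ⊢
  intro g hg
  by_contra hcon
  push Not at hcon
  obtain ⟨i₁, hi₁⟩ := hcon
  -- normal forms of the nonzero coefficients
  have hex : ∀ i, g i ≠ 0 → ∃ (c : L) (w : vGaussRing A), c ≠ 0 ∧
      ((g i : ↥(IntermediateField.adjoin L {jqModC L})) : LaurentSeries L) =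
        algebraMap L (LaurentSeries L) c * (w : LaurentSeries L) ∧
      vGaussRed A w ≠ 0 ∧
      vGaussRed A w ∈ IntermediateField.adjoin (IsLocalRing.ResidueField ↥A)
        {jqModC (IsLocalRing.ResidueField ↥A)} := fun i hi =>
    exists_unit_levelOne A (g i).2 (fun h0 => hi (Subtype.ext h0))
  choose! c w hc hgw hw hwk using hex
  set S : Finset ι := Finset.univ.filter fun i => g i ≠ 0 with hS
  have hmemS : ∀ i, i ∈ S ↔ g i ≠ 0 := fun i => by
    rw [hS, Finset.mem_filter]
    exact ⟨fun h => h.2, fun h => ⟨Finset.mem_univ i, h⟩⟩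
  obtain ⟨i₀, hi₀S, hci₀, hdiv⟩ := exists_min_val A S c
    ⟨i₁, (hmemS i₁).mpr hi₁, hc i₁ hi₁⟩
  -- the scaled coefficients, in the Gauss ring
  let d : ι → vGaussRing A := fun i =>
    if hi : i ∈ S then
      ⟨algebraMap L (LaurentSeries L) ((c i₀)⁻¹ * c i),
        algebraMap_mem_vGaussRing A (hdiv i hi)⟩ * w i
    else 0
  have hd_val : ∀ i, ((d i : vGaussRing A) : LaurentSeries L) =
      (algebraMap L (LaurentSeries L) (c i₀))⁻¹ *
        ((g i : ↥(IntermediateField.adjoin L {jqModC L})) : LaurentSeries L) := by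
    intro i
    by_cases hi : i ∈ S
    · have : d i = ⟨algebraMap L (LaurentSeries L) ((c i₀)⁻¹ * c i),
        algebraMap_mem_vGaussRing A (hdiv i hi)⟩ * w i := dif_pos hi
      rw [this, hgw i ((hmemS i).mp hi)]
      show algebraMap L (LaurentSeries L) ((c i₀)⁻¹ * c i) * ((w i : vGaussRing A) :
        LaurentSeries L) = _
      rw [map_mul, map_inv₀, mul_assoc]
    · have h1 : d i = 0 := dif_neg hi
      have h2 : g i = 0 := by
        by_contra h3
        exact hi ((hmemS i).mpr h3)
      rw [h1, h2]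
      simp
  -- the relation in the Gauss ring
  have hrel : ∑ i, d i * u i = 0 := by
    apply Subtype.ext
    push_cast
    have h1 : ∀ i, ((d i : vGaussRing A) : LaurentSeries L) * ((u i : vGaussRing A) :
        LaurentSeries L) = (algebraMap L (LaurentSeries L) (c i₀))⁻¹ *
          (g i • ((u i : vGaussRing A) : LaurentSeries L)) := by
      intro i
      rw [hd_val i, mul_assoc]
      rfl
    simp only [h1]
    rw [← Finset.mul_sum, hg, mul_zero]
  have hrel' := congrArg (vGaussRed A) hrel
  rw [map_sum, map_zero] at hrel'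
  simp only [map_mul] at hrel'
  -- the reduced coefficients lie in `k(j̄)`
  have hdk : ∀ i, vGaussRed A (d i) ∈ IntermediateField.adjoin (IsLocalRing.ResidueField ↥A)
      {jqModC (IsLocalRing.ResidueField ↥A)} := by
    intro i
    by_cases hi : i ∈ S
    · have : d i = ⟨algebraMap L (LaurentSeries L) ((c i₀)⁻¹ * c i),
        algebraMap_mem_vGaussRing A (hdiv i hi)⟩ * w i := dif_pos hi
      rw [this, map_mul, vGaussRed_algebraMap A (hdiv i hi)]
      exact mul_mem (IntermediateField.algebraMap_mem _ _) (hwk i ((hmemS i).mp hi))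
    · have h1 : d i = 0 := dif_neg hi
      rw [h1, map_zero]
      exact zero_mem _
  have h0 := h (fun i => ⟨vGaussRed A (d i), hdk i⟩) hrel' i₀
  have h1 : vGaussRed A (d i₀) = 0 := congrArg Subtype.val h0
  have h2 : d i₀ = ⟨algebraMap L (LaurentSeries L) ((c i₀)⁻¹ * c i₀),
        algebraMap_mem_vGaussRing A (hdiv i₀ hi₀S)⟩ * w i₀ := dif_pos hi₀S
  rw [h2, map_mul, vGaussRed_algebraMap A (hdiv i₀ hi₀S)] at h1
  rcases mul_eq_zero.mp h1 with h3 | h3
  · rw [map_eq_zero, IsLocalRing.residue_eq_zero_iff] at h3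
    have h4 : (⟨(c i₀)⁻¹ * c i₀, hdiv i₀ hi₀S⟩ : ↥A) = 1 :=
      Subtype.ext (inv_mul_cancel₀ hci₀)
    rw [h4] at h3
    exact (Ideal.ne_top_iff_one _).mp (IsLocalRing.maximalIdeal.isMaximal ↥A).ne_top h3
  · exact hw i₀ ((hmemS i₀).mp hi₀S) h3

end Fermat.Agent.H66
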