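import Mathlib
import Fermat.Prelude.Def_ModularCurve_ReductionModL
import Fermat.Agent.H66.ESD.GaussFundIneq
import Fermat.Agent.H66.ESD.GaussNorm
import Fermat.Agent.H23.Final3
import Fermat.Agent.H85.ForH23
import Fermat.Agent.H27.Igusa.Assembly3
import Fermat.Agent.H89.ESDA3AlgClosed

/-!
# The unconditional `q`-expansion principle (P-ES, ES-D-GAUSS)

`L = ℚ̄`, `A` a valuation subring over `ℓ ∤ N`, `k` its residue field.

* `gaussRange_uncond` : `Red(O) ⊆ F_k`: the reduction of every element of the Gauss ring of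
  `F_L` lies in `F_k = modularFunctionFieldFullC k N`.
* `qExpansionPrinciple` : `a ∈ A((q))`, `ι a ∈ F_L` implies `ρ a ∈ F_k`.

Proof: fundamental inequality for the Gauss valuation over `L(j)`, the degree bound
`[F_L : L(j)] ≤ ψ(N)` (P-GENUS) and the degree bound `ψ(N) ≤ [F_k : k(j̄)]` (P-IGUSA).
-/

set_option autoImplicit false
set_option synthInstance.maxHeartbeats 400000
set_option linter.unusedSectionVars false

open AlgebraicCurve ModularCurve IntermediateField

namespace Fermat.Agent.H66

noncomputable section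

/-! ### The `L`-side -/

theorem coe_jBar (N : ℕ) [NeZero N] :
    ((Fermat.Agent.H23.jBar N : ↥(modularFunctionFieldBar N)) :
      LaurentSeries (AlgebraicClosure ℚ)) = jqModC (AlgebraicClosure ℚ) := by
  show coeffEmb (AlgebraicClosure ℚ) jq = _
  rw [coeffEmb, ← jqModC_rat, coeffMap_jqModC]

/-- Elements of `ℚ̄(j) ⊆ F_L` are elements of `ℚ̄(j) ⊆ ℚ̄((q))`. -/
theorem coe_mem_adjoin_jq (N : ℕ) [NeZero N]
    (f : ↥((AlgebraicClosure ℚ)⟮Fermat.Agent.H23.jBar N⟯)) :
    (((f : ↥(modularFunctionFieldBar N))) : LaurentSeries (AlgebraicClosure ℚ)) ∈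
      IntermediateField.adjoin (AlgebraicClosure ℚ) {jqModC (AlgebraicClosure ℚ)} := by
  have h1 : (modularFunctionFieldBar N).val (f : ↥(modularFunctionFieldBar N)) ∈
      ((AlgebraicClosure ℚ)⟮Fermat.Agent.H23.jBar N⟯).map (modularFunctionFieldBar N).val :=
    ⟨f, f.2, rfl⟩
  rw [IntermediateField.adjoin_map, Set.image_singleton] at h1
  have h2 : (modularFunctionFieldBar N).val (Fermat.Agent.H23.jBar N) =
      jqModC (AlgebraicClosure ℚ) := coe_jBar N
  rw [h2] at h1
  exact h1

/-- The fundamental inequality for `F_L`. -/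
theorem linearIndependent_bar_of_red (N : ℕ) [NeZero N]
    (A : ValuationSubring (AlgebraicClosure ℚ)) {ι : Type*} [Fintype ι]
    (u : ι → ↥(gaussOBar N A))
    (h : LinearIndependent
      ↥(IntermediateField.adjoin (IsLocalRing.ResidueField ↥A)
        {jqModC (IsLocalRing.ResidueField ↥A)})
      (fun i => gaussRedBar N A (u i))) :
    LinearIndependent ↥((AlgebraicClosure ℚ)⟮Fermat.Agent.H23.jBar N⟯)
      (fun i => ((u i : ↥(gaussOBar N A)) : ↥(modularFunctionFieldBar N))) := by
  have h1 := linearIndependent_of_vGaussRed_levelOne A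
    (fun i => (⟨((u i : ↥(modularFunctionFieldBar N)) : LaurentSeries (AlgebraicClosure ℚ)),
      (u i).2⟩ : ↥(vGaussRing A))) h
  rw [Fintype.linearIndependent_iff] at h1 ⊢
  intro g hg i
  have h2 := h1 (fun i => ⟨_, coe_mem_adjoin_jq N (g i)⟩) ?_ i
  · apply Subtype.ext
    apply Subtype.ext
    exact congrArg (fun z : ↥(IntermediateField.adjoin (AlgebraicClosure ℚ)
      {jqModC (AlgebraicClosure ℚ)}) => (z : LaurentSeries (AlgebraicClosure ℚ))) h2
  · have h3 := congrArg (fun y : ↥(modularFunctionFieldBar N) =>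
      (y : LaurentSeries (AlgebraicClosure ℚ))) hg
    simp only [AddSubmonoidClass.coe_finsetSum, ZeroMemClass.coe_zero] at h3
    rw [← h3]
    rfl

/-- `[F_L : ℚ̄(j)] ≤ ψ(N)`. -/
theorem card_le_dedekindPsi_of_linearIndependent (N : ℕ) [NeZero N] {ι : Type*} [Fintype ι]
    (y : ι → ↥(modularFunctionFieldBar N))
    (h : LinearIndependent ↥((AlgebraicClosure ℚ)⟮Fermat.Agent.H23.jBar N⟯) y) :
    Fintype.card ι ≤ dedekindPsi N := by
  obtain ⟨-, hfd, hle⟩ := Fermat.Agent.H23.degreeStatement_holds N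
  have hcard := (Fermat.Agent.H85.cosetCombinatorics N).1
  have := hfd
  exact (h.fintype_card_le_finrank).trans (hle.trans hcard.le)

/-! ### The `k`-side -/

theorem adjoin_jq_le_fullC (k : Type*) [Field k] (N : ℕ) [NeZero N] :
    IntermediateField.adjoin k {jqModC k} ≤ modularFunctionFieldFullC k N := by
  rw [IntermediateField.adjoin_le_iff]
  rintro x hx
  rw [Set.mem_singleton_iff] at hx
  rw [hx]
  exact jqModC_mem_full k N

/-- The `k(j̄)`-span of elements of `F_k` lies in `F_k`. -/
theorem span_le_fullC (k : Type*) [Field k] (N : ℕ) [NeZero N] {ι : Type*}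
    (e : ι → LaurentSeries k) (he : ∀ i, e i ∈ modularFunctionFieldFullC k N)
    {x : LaurentSeries k}
    (hx : x ∈ Submodule.span ↥(IntermediateField.adjoin k {jqModC k}) (Set.range e)) :
    x ∈ modularFunctionFieldFullC k N := by
  induction hx using Submodule.span_induction with
  | mem x hx =>
    obtain ⟨i, rfl⟩ := hx
    exact he i
  | zero => exact zero_mem _
  | add x y _ _ hx hy => exact add_mem hx hy
  | smul c x _ hx =>
    exact mul_mem (adjoin_jq_le_fullC k N c.2) hx

/-- `ψ(N)` elements of `F_k`, linearly independent over `k(j̄)`. -/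
theorem exists_indep_fullC (N : ℕ) [NeZero N] (ℓ : ℕ) [Fact ℓ.Prime] (hℓN : ¬ ℓ ∣ N)
    (A : ValuationSubring (AlgebraicClosure ℚ)) (hA : A.LiesOverPrime ℓ) :
    ∃ e : Fin (dedekindPsi N) → LaurentSeries (IsLocalRing.ResidueField ↥A),
      (∀ i, e i ∈ modularFunctionFieldFullC (IsLocalRing.ResidueField ↥A) N) ∧
      LinearIndependent
        ↥(IntermediateField.adjoin (IsLocalRing.ResidueField ↥A)
          {jqModC (IsLocalRing.ResidueField ↥A)}) e := by
  have : IsAlgClosed (IsLocalRing.ResidueField ↥A) :=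
    Fermat.Agent.H89.isAlgClosed_residueField A
  have : CharP (IsLocalRing.ResidueField ↥A) ℓ :=
    Fermat.Agent.H89.charP_residueField_of_liesOverPrime A ℓ hA
  have hN : (N : IsLocalRing.ResidueField ↥A) ≠ 0 := by
    intro h
    exact hℓN ((CharP.cast_eq_zero_iff (IsLocalRing.ResidueField ↥A) ℓ N).mp h)
  have hM := Fermat.Agent.H67.hasHeckeData_of_complex Fermat.Agent.H17.hasHeckeData_complex
    (IsLocalRing.ResidueField ↥A)
  have hdeg := Fermat.Agent.H27.dedekindPsi_le_relrank_geom_of (IsLocalRing.ResidueField ↥A)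
    hM (Fermat.Agent.H27.unitNormStatement_of_hasHeckeData _ hM) N hN
  rw [IntermediateField.relrank_eq_rank_of_le
    (adjoin_jq_le_fullC (IsLocalRing.ResidueField ↥A) N)] at hdeg
  obtain ⟨v, hv⟩ := Module.le_rank_iff.mp hdeg
  refine ⟨fun i => ((v i : ↥(IntermediateField.extendScalars
    (adjoin_jq_le_fullC (IsLocalRing.ResidueField ↥A) N))) :
      LaurentSeries (IsLocalRing.ResidueField ↥A)), fun i => ?_, ?_⟩
  · exact (v i).2
  · exact hv.map' (IntermediateField.extendScalars
      (adjoin_jq_le_fullC (IsLocalRing.ResidueField ↥A) N)).val.toLinearMap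
      (LinearMap.ker_eq_bot.mpr Subtype.val_injective)

/-! ### The `q`-expansion principle -/

/-- **`Red(O) ⊆ F_k`**, unconditionally. -/
theorem gaussRange_uncond (N : ℕ) [NeZero N] (ℓ : ℕ) [Fact ℓ.Prime] (hℓN : ¬ ℓ ∣ N)
    (A : ValuationSubring (AlgebraicClosure ℚ)) (hA : A.LiesOverPrime ℓ)
    (u : ↥(gaussOBar N A)) :
    gaussRedBar N A u ∈ modularFunctionFieldFullC (IsLocalRing.ResidueField ↥A) N := by
  obtain ⟨e, heF, heli⟩ := exists_indep_fullC N ℓ hℓN A hA
  have hlift : ∀ i, ∃ w : ↥(gaussOBar N A), gaussRedBar N A w = e i :=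
    fun i => gaussSurj N ℓ A hA (e i) (heF i)
  choose w hw using hlift
  by_contra hu
  have hnot : gaussRedBar N A u ∉ Submodule.span
      ↥(IntermediateField.adjoin (IsLocalRing.ResidueField ↥A)
        {jqModC (IsLocalRing.ResidueField ↥A)}) (Set.range e) :=
    fun h => hu (span_le_fullC _ N e heF h)
  have hli := heli.option hnot
  have hfun : (fun o : Option (Fin (dedekindPsi N)) =>
      gaussRedBar N A (Option.casesOn' o u w)) =
      (fun o => Option.casesOn' o (gaussRedBar N A u) e) := by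
    funext o
    cases o with
    | none => rfl
    | some i => exact hw i
  rw [← hfun] at hli
  have h1 := card_le_dedekindPsi_of_linearIndependent N _
    (linearIndependent_bar_of_red N A (fun o => Option.casesOn' o u w) hli)
  rw [Fintype.card_option, Fintype.card_fin] at h1
  omega

/-- **The `q`-expansion principle**, unconditionally: an integral Laurent series lying in `F_L`
has its reduction in `F_k`. -/
theorem qExpansionPrinciple (N : ℕ) [NeZero N] (ℓ : ℕ) [Fact ℓ.Prime] (hℓN : ¬ ℓ ∣ N)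
    (A : ValuationSubring (AlgebraicClosure ℚ)) (hA : A.LiesOverPrime ℓ)
    (a : LaurentSeries ↥A)
    (ha : coeffMap A.subtype a ∈ modularFunctionFieldBar N) :
    coeffMap (IsLocalRing.residue ↥A) a ∈
      modularFunctionFieldFullC (IsLocalRing.ResidueField ↥A) N := by
  have h0 : ((⟨coeffMap A.subtype a, ha⟩ : ↥(modularFunctionFieldBar N)) :
      LaurentSeries (AlgebraicClosure ℚ)) = vIota A a := rfl
  have h1 := gaussRange_uncond N ℓ hℓN A hA ⟨⟨_, ha⟩, mem_gaussOBar_of_eq_vIota N A h0⟩
  rw [gaussRedBar_of_eq_vIota N A h0] at h1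
  exact h1

end

end Fermat.Agent.H66
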