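import Mathlib
import Fermat.Prelude.Def_ModularCurve_ReductionModL
import Fermat.Agent.H66.ESD.GaussNorm

/-!
# Unconditional lattice reduction (G3) for the Gauss ring (P-ES, ES-D-GAUSS)

For ANY field `L` of characteristic `0`, ANY valuation subring `A` of `L` and every
finite-dimensional `L`-subspace `V` of `F_L = laurentBaseChange L (modularFunctionFieldFull N)`
there are `dim V` elements of `V` lying in the Gauss ring whose reductions are linearly
independent over the residue field.
-/

set_option autoImplicit false
set_option synthInstance.maxHeartbeats 400000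
set_option linter.unusedSectionVars false

open AlgebraicCurve ModularCurve

namespace Fermat.Agent.H66

noncomputable section

variable {L : Type*} [Field L] [Algebra ℚ L] (A : ValuationSubring L) (N : ℕ)

/-- The coefficient functionals on `F_L`. -/
def coeffBar (L : Type*) [Field L] [Algebra ℚ L] (N : ℕ) (n : ℤ) :
    ↥(laurentBaseChange L (modularFunctionFieldFull N)) →ₗ[L] L where
  toFun y := (y : LaurentSeries L).coeff n
  map_add' _ _ := rfl
  map_smul' c y := by
    show ((c • y : ↥(laurentBaseChange L (modularFunctionFieldFull N))) :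
      LaurentSeries L).coeff n = c * (y : LaurentSeries L).coeff n
    rw [IntermediateField.coe_smul, Algebra.smul_def, coeff_algebraMap_mul]

@[simp] theorem coeffBar_apply (n : ℤ)
    (y : ↥(laurentBaseChange L (modularFunctionFieldFull N))) :
    coeffBar L N n y = (y : LaurentSeries L).coeff n := rfl

set_option maxHeartbeats 3200000 in
/-- **Pivoting.**  A finite-dimensional subspace of `F_L` all of whose elements are determined
by their coefficients at a finite set `T` of positions (through integer relations) has a basis
of integral series with linearly independent reductions. -/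
theorem exists_lattice_of_positions (T : Finset ℤ) (z : ℤ → ℤ → ℤ) :
    ∀ (d : ℕ) (V : Submodule L ↥(laurentBaseChange L (modularFunctionFieldFull N))),
      Module.finrank L ↥V = d → Module.Finite L ↥V →
      (∀ a ∈ V, ∀ n, (a : LaurentSeries L).coeff n =
        ∑ t ∈ T, (z n t : L) * (a : LaurentSeries L).coeff t) →
      ∃ Y : Fin d → LaurentSeries ↥A,
        (∀ i, ∃ v ∈ V, (v : LaurentSeries L) = vIota A (Y i)) ∧
        LinearIndependent (IsLocalRing.ResidueField ↥A) (fun i => vRho A (Y i)) := by
  classical
  intro d
  induction d with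
  | zero =>
    intro V _ _ _
    exact ⟨fun i => i.elim0, fun i => i.elim0, linearIndependent_empty_type⟩
  | succ d ih =>
    intro V hd hfin hK
    have : Module.Finite L ↥V := hfin
    -- a nonzero element
    have hpos : 0 < Module.finrank L ↥V := by
      rw [hd]
      exact Nat.succ_pos d
    obtain ⟨a', ha'0⟩ := Module.finrank_pos_iff_exists_ne_zero.mp hpos
    have ha0 : ((a' : ↥(laurentBaseChange L (modularFunctionFieldFull N))) :
        LaurentSeries L) ≠ 0 := by
      intro h
      apply ha'0
      apply Subtype.ext
      apply Subtype.ext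
      exact h
    have hne : ∃ t ∈ T, ((a' : ↥(laurentBaseChange L (modularFunctionFieldFull N))) :
        LaurentSeries L).coeff t ≠ 0 := by
      by_contra hcon
      push Not at hcon
      apply ha0
      refine HahnSeries.ext (funext fun n => ?_)
      rw [hK _ a'.2 n]
      refine Finset.sum_eq_zero fun t ht => ?_
      rw [hcon t ht, mul_zero]
    obtain ⟨t₀, ht₀, hc0, hdiv⟩ := exists_min_val A T
      (fun t => ((a' : ↥(laurentBaseChange L (modularFunctionFieldFull N))) :
        LaurentSeries L).coeff t) hne
    obtain ⟨c, hc⟩ : ∃ c : L, c = ((a' : ↥(laurentBaseChange L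
        (modularFunctionFieldFull N))) : LaurentSeries L).coeff t₀ := ⟨_, rfl⟩
    rw [← hc] at hc0 hdiv
    -- the normalised element
    obtain ⟨u₀, hu₀⟩ : ∃ u₀ : ↥(laurentBaseChange L (modularFunctionFieldFull N)),
      u₀ = c⁻¹ • (a' : ↥(laurentBaseChange L (modularFunctionFieldFull N))) := ⟨_, rfl⟩
    have hu₀V : u₀ ∈ V := by
      rw [hu₀]
      exact V.smul_mem _ a'.2
    have hu₀coeff : ∀ n, (u₀ : LaurentSeries L).coeff n =
        c⁻¹ * ((a' : ↥(laurentBaseChange L (modularFunctionFieldFull N))) :
          LaurentSeries L).coeff n := by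
      intro n
      rw [hu₀]
      exact (coeffBar L N n).map_smul c⁻¹
        (a' : ↥(laurentBaseChange L (modularFunctionFieldFull N)))
    have hint : ∀ n, (u₀ : LaurentSeries L).coeff n ∈ A := by
      intro n
      rw [hu₀coeff, hK _ a'.2 n, Finset.mul_sum]
      refine sum_mem fun t ht => ?_
      have h1 : c⁻¹ * ((z n t : L) * ((a' : ↥(laurentBaseChange L
          (modularFunctionFieldFull N))) : LaurentSeries L).coeff t) =
          (z n t : L) * (c⁻¹ * ((a' : ↥(laurentBaseChange L
          (modularFunctionFieldFull N))) : LaurentSeries L).coeff t) := by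
        ring
      rw [h1]
      exact mul_mem (intCast_mem A (z n t)) (hdiv t ht)
    obtain ⟨Y₀, hY₀⟩ := (mem_range_vIota_iff A _).mpr hint
    have hY₀t : Y₀.coeff t₀ = 1 := by
      apply Subtype.ext
      have h1 : ((Y₀.coeff t₀ : ↥A) : L) = (u₀ : LaurentSeries L).coeff t₀ := by
        rw [← hY₀]
        rfl
      rw [h1, hu₀coeff, ← hc, inv_mul_cancel₀ hc0]
      rfl
    -- the hyperplane
    obtain ⟨f, hf⟩ : ∃ f : ↥V →ₗ[L] L, f = (coeffBar L N t₀).domRestrict V := ⟨_, rfl⟩
    have hfapp : ∀ y : ↥V, f y = ((y : ↥(laurentBaseChange L (modularFunctionFieldFull N))) :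
        LaurentSeries L).coeff t₀ := by
      intro y
      rw [hf]
      rfl
    have hfu : f ⟨u₀, hu₀V⟩ = 1 := by
      rw [hfapp, hu₀coeff, ← hc, inv_mul_cancel₀ hc0]
    have hrange : LinearMap.range f = ⊤ := by
      rw [eq_top_iff]
      intro x _
      refine ⟨x • ⟨u₀, hu₀V⟩, ?_⟩
      refine (f.map_smul x ⟨u₀, hu₀V⟩).trans ?_
      rw [hfu, smul_eq_mul, mul_one]
    have hrr : Module.finrank L ↥(LinearMap.range f) = 1 := by
      rw [hrange]
      exact (finrank_top L L).trans (Module.finrank_self L)
    have hker : Module.finrank L ↥(LinearMap.ker f) = d := by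
      have h1 : Module.finrank L ↥(LinearMap.range f) + Module.finrank L ↥(LinearMap.ker f) =
          Module.finrank L ↥V := LinearMap.finrank_range_add_finrank_ker f
      rw [hrr, hd] at h1
      omega
    obtain ⟨V₁, hV₁⟩ : ∃ V₁ : Submodule L ↥(laurentBaseChange L (modularFunctionFieldFull N)),
      V₁ = (LinearMap.ker f).map V.subtype := ⟨_, rfl⟩
    have hV₁le : V₁ ≤ V := by
      rw [hV₁]
      rintro x ⟨y, -, rfl⟩
      exact y.2
    have hV₁ker : ∀ x ∈ V₁, (x : LaurentSeries L).coeff t₀ = 0 := by
      rw [hV₁]
      rintro x ⟨y, hy, rfl⟩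
      have hy' : f y = 0 := LinearMap.mem_ker.mp hy
      rw [hfapp] at hy'
      exact hy'
    have hV₁rank : Module.finrank L ↥V₁ = d := by
      rw [hV₁, ← hker]
      exact (Submodule.equivMapOfInjective V.subtype V.injective_subtype
        (LinearMap.ker f)).finrank_eq.symm
    have hV₁fin : Module.Finite L ↥V₁ :=
      Module.Finite.of_injective (Submodule.inclusion hV₁le) (Submodule.inclusion_injective _)
    obtain ⟨Y, hYV, hYli⟩ := ih V₁ hV₁rank hV₁fin (fun a ha n => hK a (hV₁le ha) n)
    refine ⟨Fin.cons Y₀ Y, fun i => ?_, ?_⟩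
    · refine Fin.cases ?_ (fun j => ?_) i
      · exact ⟨u₀, hu₀V, hY₀.symm⟩
      · obtain ⟨v, hv, hvY⟩ := hYV j
        exact ⟨v, hV₁le hv, hvY⟩
    · have hcons : (fun i => vRho A ((Fin.cons Y₀ Y : Fin (d + 1) → LaurentSeries ↥A) i)) =
          Fin.cons (vRho A Y₀) (fun i => vRho A (Y i)) := by
        funext i
        refine Fin.cases ?_ (fun j => ?_) i
        · rfl
        · rfl
      rw [hcons, linearIndependent_finCons]
      refine ⟨hYli, fun hmem => ?_⟩
      -- elements of the span have coefficient `0` at `t₀`
      have hspan : ∀ x ∈ Submodule.span (IsLocalRing.ResidueField ↥A)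
          (Set.range fun i => vRho A (Y i)), x.coeff t₀ = 0 := by
        intro x hx
        induction hx using Submodule.span_induction with
        | mem x hx =>
          obtain ⟨j, rfl⟩ := hx
          obtain ⟨v, hv, hvY⟩ := hYV j
          have h1 : ((Y j).coeff t₀ : L) = 0 := by
            have := hV₁ker v hv
            rw [hvY] at this
            exact this
          have h2 : (Y j).coeff t₀ = 0 := Subtype.ext h1
          rw [vRho_coeff, h2, map_zero]
        | zero => rfl
        | add x y _ _ hx hy =>
          rw [HahnSeries.coeff_add, hx, hy, add_zero]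
        | smul c x _ hx =>
          rw [HahnSeries.coeff_smul, hx, smul_zero]
      have h1 := hspan _ hmem
      rw [vRho_coeff, hY₀t, map_one] at h1
      exact one_ne_zero h1

end

end Fermat.Agent.H66
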