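import Mathlib
import Fermat.Prelude.Def_ModularCurve_ReductionModL
import Fermat.Agent.H66.ESD.GaussLattice

/-!
# Unconditional lattice reduction (G3), part 2: reduction to the pivoting lemma
-/

set_option autoImplicit false
set_option synthInstance.maxHeartbeats 400000
set_option linter.unusedSectionVars false

open AlgebraicCurve ModularCurve

namespace Fermat.Agent.H66

noncomputable section

variable {L : Type*} [Field L] [Algebra ℚ L] (A : ValuationSubring L) (N : ℕ)

/-- The linear relations `a[n] = ∑_{t ∈ T} z n t · a[t]`. -/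
def PosRel (L : Type*) [Field L] (T : Finset ℤ) (z : ℤ → ℤ → ℤ) (a : LaurentSeries L) : Prop :=
  ∀ n, a.coeff n = ∑ t ∈ T, (z n t : L) * a.coeff t

theorem PosRel.zero (T : Finset ℤ) (z : ℤ → ℤ → ℤ) : PosRel L T z 0 := by
  intro n
  simp

theorem PosRel.add {T : Finset ℤ} {z : ℤ → ℤ → ℤ} {a b : LaurentSeries L}
    (ha : PosRel L T z a) (hb : PosRel L T z b) : PosRel L T z (a + b) := by
  intro n
  rw [HahnSeries.coeff_add, ha n, hb n, ← Finset.sum_add_distrib]
  refine Finset.sum_congr rfl fun t _ => ?_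
  rw [HahnSeries.coeff_add, mul_add]

theorem PosRel.const_mul {T : Finset ℤ} {z : ℤ → ℤ → ℤ} {a : LaurentSeries L}
    (ha : PosRel L T z a) (c : L) : PosRel L T z (algebraMap L (LaurentSeries L) c * a) := by
  intro n
  rw [coeff_algebraMap_mul, ha n, Finset.mul_sum]
  refine Finset.sum_congr rfl fun t _ => ?_
  rw [coeff_algebraMap_mul]
  ring

theorem PosRel.of_int {T : Finset ℤ} {z : ℤ → ℤ → ℤ} {x : LaurentSeries ℤ}
    (hx : ∀ n, x.coeff n = ∑ t ∈ T, z n t * x.coeff t) :
    PosRel L T z (coeffMap (Int.castRingHom L) x) := by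
  intro n
  show ((x.coeff n : ℤ) : L) = ∑ t ∈ T, (z n t : L) * ((x.coeff t : ℤ) : L)
  rw [hx n]
  push_cast
  rfl

/-- Positions for a finitely generated subspace of `F_L` contained in the span of the integer
series. -/
theorem exists_positions (V : Submodule L ↥(laurentBaseChange L (modularFunctionFieldFull N)))
    (hfin : Module.Finite L ↥V)
    (hV : ∀ a ∈ V, (a : LaurentSeries L) ∈ intSpanAlg L) :
    ∃ (T : Finset ℤ) (z : ℤ → ℤ → ℤ), ∀ a ∈ V, PosRel L T z (a : LaurentSeries L) := by
  classical
  have hfg : V.FG := (Submodule.fg_top V).mp hfin.fg_top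
  obtain ⟨S, hS⟩ := hfg
  have hSV : ∀ a ∈ S, a ∈ V := fun a ha => hS ▸ Submodule.subset_span ha
  have hex : ∀ a : ↥(laurentBaseChange L (modularFunctionFieldFull N)), a ∈ S →
      ∃ F : LaurentSeries ℤ →₀ L, (a : LaurentSeries L) = F.sum fun y r =>
        algebraMap L (LaurentSeries L) r * coeffMap (Int.castRingHom L) y :=
    fun a ha => exists_finsupp_of_mem_intSpanAlg L (hV a (hSV a ha))
  choose! F hF using hex
  obtain ⟨T, hT⟩ := exists_finite_positions (S.biUnion fun a => (F a).support)
  choose z hz using hT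
  refine ⟨T, z, fun a ha => ?_⟩
  rw [← hS] at ha
  induction ha using Submodule.span_induction with
  | mem a ha =>
    rw [hF a ha, Finsupp.sum]
    refine Finset.sum_induction _ (PosRel L T z) (fun _ _ => PosRel.add) (PosRel.zero T z) ?_
    intro x hx
    refine PosRel.const_mul (PosRel.of_int fun n => ?_) _
    exact hz n x (Finset.mem_biUnion.mpr ⟨a, ha, hx⟩)
  | zero => exact PosRel.zero T z
  | add a b _ _ ha hb => exact PosRel.add ha hb
  | smul c a _ ha =>
    have h1 : ((c • a : ↥(laurentBaseChange L (modularFunctionFieldFull N))) :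
        LaurentSeries L) = algebraMap L (LaurentSeries L) c * (a : LaurentSeries L) := by
      rw [IntermediateField.coe_smul, Algebra.smul_def]
    rw [h1]
    exact PosRel.const_mul ha c

/-- A common denominator: an integral series `G` with nonzero reduction, lying in `F_L`, which
multiplies a given finitely generated subspace into the span of the integer series. -/
theorem exists_common_denominator
    (V : Submodule L ↥(laurentBaseChange L (modularFunctionFieldFull N)))
    (hfin : Module.Finite L ↥V) :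
    ∃ G : LaurentSeries ↥A, vRho A G ≠ 0 ∧
      vIota A G ∈ laurentBaseChange L (modularFunctionFieldFull N) ∧
      ∀ a ∈ V, (a : LaurentSeries L) * vIota A G ∈ intSpanAlg L := by
  classical
  have hfg : V.FG := (Submodule.fg_top V).mp hfin.fg_top
  obtain ⟨S, hS⟩ := hfg
  have hex : ∀ a : ↥(laurentBaseChange L (modularFunctionFieldFull N)),
      ∃ x ∈ intRingBase L N, ∃ y ∈ intRingBase L N, y ≠ 0 ∧ (a : LaurentSeries L) * y = x :=
    fun a => base_le_ratioSubfield L N a.2
  choose x hx y hy hy0 hxy using hex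
  -- the product of the denominators
  have hg₀mem : ∏ a ∈ S, y a ∈ intRingBase L N := Subring.prod_mem _ fun a _ => hy a
  have hg₀0 : ∏ a ∈ S, y a ≠ 0 := Finset.prod_ne_zero_iff.mpr fun a _ => hy0 a
  have hSg : ∀ a ∈ S, (a : LaurentSeries L) * ∏ b ∈ S, y b ∈ intSpanAlg L := by
    intro a ha
    rw [← Finset.mul_prod_erase S y ha, ← mul_assoc, hxy a]
    exact ((intRingBase L N).mul_mem (hx a)
      (Subring.prod_mem _ fun b _ => hy b)).1
  have hVg : ∀ a ∈ V, (a : LaurentSeries L) * ∏ b ∈ S, y b ∈ intSpanAlg L := by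
    intro a ha
    rw [← hS] at ha
    induction ha using Submodule.span_induction with
    | mem a ha => exact hSg a ha
    | zero =>
      rw [ZeroMemClass.coe_zero, zero_mul]
      exact zero_mem _
    | add a b _ _ ha hb =>
      rw [AddMemClass.coe_add, add_mul]
      exact add_mem ha hb
    | smul c a _ ha =>
      have h1 : ((c • a : ↥(laurentBaseChange L (modularFunctionFieldFull N))) :
          LaurentSeries L) = algebraMap L (LaurentSeries L) c * (a : LaurentSeries L) := by
        rw [IntermediateField.coe_smul, Algebra.smul_def]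
      rw [h1, mul_assoc]
      exact mul_mem (Subalgebra.algebraMap_mem _ c) ha
  obtain ⟨F, hF⟩ := exists_finsupp_of_mem_intSpanAlg L hg₀mem.1
  obtain ⟨c, G, hc, hG, hgG⟩ := exists_normalisation_of_sum A F hF hg₀0
  have hC : algebraMap L (LaurentSeries L) c ≠ 0 := by
    rw [Ne, map_eq_zero]
    exact hc
  have hGeq : vIota A G = algebraMap L (LaurentSeries L) c⁻¹ * ∏ b ∈ S, y b := by
    rw [hgG, ← mul_assoc, ← map_mul, inv_mul_cancel₀ hc, map_one, one_mul]
  refine ⟨G, hG, ?_, fun a ha => ?_⟩
  · rw [hGeq]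
    exact mul_mem (IntermediateField.algebraMap_mem _ _) hg₀mem.2
  · rw [hGeq, ← mul_assoc, mul_comm (a : LaurentSeries L), mul_assoc]
    exact mul_mem (Subalgebra.algebraMap_mem _ _) (hVg a ha)

set_option maxHeartbeats 1600000 in
/-- **(G3) Lattice reduction**, for any field `L` of characteristic `0` and any valuation
subring `A`: a finite-dimensional subspace `V` of `F_L` contains `dim V` elements of the Gauss
ring with linearly independent reductions. -/
theorem exists_lattice_reduction
    (V : Submodule L ↥(laurentBaseChange L (modularFunctionFieldFull N)))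
    (hfin : Module.Finite L ↥V) :
    ∃ (u : Fin (Module.finrank L ↥V) → ↥(laurentBaseChange L (modularFunctionFieldFull N)))
      (hu : ∀ i, ((u i : ↥(laurentBaseChange L (modularFunctionFieldFull N))) :
        LaurentSeries L) ∈ vGaussRing A),
      (∀ i, u i ∈ V) ∧
      LinearIndependent (IsLocalRing.ResidueField ↥A)
        (fun i => vGaussRed A ⟨_, hu i⟩) := by
  classical
  obtain ⟨G, hG, hGF, hVG⟩ := exists_common_denominator A N V hfin
  -- the element `g = ι G` of `F_L`
  obtain ⟨g, hg⟩ : ∃ g : ↥(laurentBaseChange L (modularFunctionFieldFull N)),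
      (g : LaurentSeries L) = vIota A G := ⟨⟨_, hGF⟩, rfl⟩
  have hg0 : g ≠ 0 := by
    intro h
    have h1 : vIota A G = 0 := by rw [← hg, h]; rfl
    exact hG (by rw [(vIota_eq_zero_iff A G).mp h1, map_zero])
  -- multiplication by `g`
  obtain ⟨m, hm⟩ : ∃ m : ↥(laurentBaseChange L (modularFunctionFieldFull N)) →ₗ[L]
      ↥(laurentBaseChange L (modularFunctionFieldFull N)), ∀ a, m a = g * a :=
    ⟨LinearMap.mulLeft L g, fun a => rfl⟩
  have hminj : Function.Injective m := by
    intro a b hab
    rw [hm, hm] at hab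
    exact mul_left_cancel₀ hg0 hab
  obtain ⟨V', hV'⟩ : ∃ V' : Submodule L ↥(laurentBaseChange L (modularFunctionFieldFull N)),
      V' = V.map m := ⟨_, rfl⟩
  have hrank : Module.finrank L ↥V' = Module.finrank L ↥V := by
    rw [hV']
    exact (Submodule.equivMapOfInjective m hminj V).finrank_eq.symm
  have hfin' : Module.Finite L ↥V' := by
    rw [hV']
    exact Module.Finite.of_surjective (Submodule.equivMapOfInjective m hminj V).toLinearMap
      (Submodule.equivMapOfInjective m hminj V).surjective
  have hV'mem : ∀ a' ∈ V', ∃ a ∈ V, a' = g * a := by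
    intro a' ha'
    rw [hV'] at ha'
    obtain ⟨a, ha, rfl⟩ := ha'
    exact ⟨a, ha, hm a⟩
  have hV'span : ∀ a' ∈ V', (a' : LaurentSeries L) ∈ intSpanAlg L := by
    intro a' ha'
    obtain ⟨a, ha, rfl⟩ := hV'mem a' ha'
    have h1 : ((g * a : ↥(laurentBaseChange L (modularFunctionFieldFull N))) :
        LaurentSeries L) = (a : LaurentSeries L) * vIota A G := by
      rw [← hg, mul_comm]
      rfl
    rw [h1]
    exact hVG a ha
  obtain ⟨T, z, hTz⟩ := exists_positions N V' hfin' hV'span
  obtain ⟨Y, hYV, hYli⟩ := exists_lattice_of_positions A N T z (Module.finrank L ↥V) V'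
    hrank hfin' hTz
  -- back to `V`
  have hex : ∀ i, ∃ a ∈ V, (a : LaurentSeries L) * vIota A G = vIota A (Y i) := by
    intro i
    obtain ⟨v, hv, hvY⟩ := hYV i
    obtain ⟨a, ha, rfl⟩ := hV'mem v hv
    refine ⟨a, ha, ?_⟩
    rw [← hvY, ← hg, mul_comm]
    rfl
  choose u huV huY using hex
  have hu : ∀ i, ((u i : ↥(laurentBaseChange L (modularFunctionFieldFull N))) :
      LaurentSeries L) ∈ vGaussRing A :=
    fun i => (mem_vGaussRing_iff A _).mpr ⟨Y i, G, hG, huY i⟩
  refine ⟨u, hu, huV, ?_⟩
  have hred : ∀ i, vGaussRed A ⟨_, hu i⟩ = vRho A (Y i) / vRho A G :=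
    fun i => vGaussRed_eq A ⟨_, hu i⟩ (Y i) G hG (huY i)
  rw [Fintype.linearIndependent_iff] at hYli ⊢
  intro β hβ i
  refine hYli β ?_ i
  have h1 : (∑ j, β j • vGaussRed A ⟨_, hu j⟩) * vRho A G = 0 := by
    rw [hβ, zero_mul]
  rw [Finset.sum_mul] at h1
  rw [← h1]
  refine Finset.sum_congr rfl fun j _ => ?_
  rw [hred j, ← HahnSeries.C_mul_eq_smul, ← HahnSeries.C_mul_eq_smul, mul_assoc,
    div_mul_cancel₀ _ hG]

/-- **(G3)** of row 303, unconditional. -/
theorem gaussLattice : GaussLatticeStatement := by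
  intro N _ ℓ _ A _ V hV
  obtain ⟨u, hu, huV, hli⟩ := exists_lattice_reduction A N V hV
  exact ⟨fun i => ⟨u i, hu i⟩, huV, hli⟩

end

end Fermat.Agent.H66
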