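import Mathlib
import Fermat.Prelude.Def_ModularCurve_ReductionModL
import Fermat.Agent.H66.ESD.GaussQEP
import Fermat.Agent.H58.RR.Modular
import Fermat.Agent.H23.PlaceBasic

/-!
# `PrincipalGeneratedByIntegral`, unconditionally (P-ES, ES-D-GAUSS / ES-D-EX)

For `ℓ ∤ N` and `A` a valuation subring of `ℚ̄` over `ℓ`: every principal divisor of
`F_L = modularFunctionFieldBar N` is a difference of two divisors of integral Laurent series
lying in `F_L` whose reductions are nonzero elements of `F_k`.  Hence the prelude predicate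
`ReductionInputsModL A N` is equivalent to the existence of a place reduction `r` alone.
-/

set_option autoImplicit false
set_option synthInstance.maxHeartbeats 400000
set_option linter.unusedSectionVars false

open AlgebraicCurve ModularCurve IntermediateField

namespace Fermat.Agent.H66

noncomputable section

/-- **Gauss normal form with range**: every nonzero `f ∈ F_L` satisfies `f * ι b = c * ι a` with
`c ≠ 0`, `ι a, ι b ∈ F_L` and `ρ a, ρ b` NONZERO ELEMENTS OF `F_k`. -/
theorem exists_gnf_range (N : ℕ) [NeZero N] (ℓ : ℕ) [Fact ℓ.Prime] (hℓN : ¬ ℓ ∣ N)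
    (A : ValuationSubring (AlgebraicClosure ℚ)) (hA : A.LiesOverPrime ℓ)
    (f : ↥(modularFunctionFieldBar N)) (hf0 : f ≠ 0) :
    ∃ (c : AlgebraicClosure ℚ) (a b : LaurentSeries ↥A)
      (ha : coeffMap A.subtype a ∈ modularFunctionFieldBar N)
      (hb : coeffMap A.subtype b ∈ modularFunctionFieldBar N),
      c ≠ 0 ∧
      coeffMap (IsLocalRing.residue ↥A) a ∈
        modularFunctionFieldFullC (IsLocalRing.ResidueField ↥A) N ∧
      coeffMap (IsLocalRing.residue ↥A) b ∈
        modularFunctionFieldFullC (IsLocalRing.ResidueField ↥A) N ∧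
      coeffMap (IsLocalRing.residue ↥A) a ≠ 0 ∧
      coeffMap (IsLocalRing.residue ↥A) b ≠ 0 ∧
      f * (⟨coeffMap A.subtype b, hb⟩ : ↥(modularFunctionFieldBar N)) =
        algebraMap (AlgebraicClosure ℚ) ↥(modularFunctionFieldBar N) c *
          (⟨coeffMap A.subtype a, ha⟩ : ↥(modularFunctionFieldBar N)) := by
  have hf0' : (f : LaurentSeries (AlgebraicClosure ℚ)) ≠ 0 := fun h => hf0 (Subtype.ext h)
  obtain ⟨c, a, b, hc, ha, hb, hra, hrb, h⟩ := exists_gnf N A f.2 hf0'
  exact ⟨c, a, b, ha, hb, hc, qExpansionPrinciple N ℓ hℓN A hA a ha,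
    qExpansionPrinciple N ℓ hℓN A hA b hb, hra, hrb, Subtype.ext h⟩

/-- **`PrincipalGeneratedByIntegral`**, unconditionally. -/
theorem principalGenerated_uncond (N : ℕ) [NeZero N] (ℓ : ℕ) [Fact ℓ.Prime] (hℓN : ¬ ℓ ∣ N)
    (A : ValuationSubring (AlgebraicClosure ℚ)) (hA : A.LiesOverPrime ℓ) :
    PrincipalGeneratedByIntegral A (IsLocalRing.residue ↥A) N := by
  intro D hD
  obtain ⟨f, hf0, hfD⟩ := hD
  obtain ⟨c, a, b, ha, hb, hc, hak, hbk, hra, hrb, h⟩ := exists_gnf_range N ℓ hℓN A hA f hf0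
  have hPD := Fermat.Agent.H58.hasPrincipalDivisors_modularFunctionFieldBar N
  have ha0 : (⟨coeffMap A.subtype a, ha⟩ : ↥(modularFunctionFieldBar N)) ≠ 0 := by
    intro h0
    have h1 : coeffMap A.subtype a = 0 := congrArg Subtype.val h0
    have h2 : a = 0 := (vIota_eq_zero_iff A a).mp h1
    exact hra (by rw [h2, map_zero])
  have hb0 : (⟨coeffMap A.subtype b, hb⟩ : ↥(modularFunctionFieldBar N)) ≠ 0 := by
    intro h0
    have h1 : coeffMap A.subtype b = 0 := congrArg Subtype.val h0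
    have h2 : b = 0 := (vIota_eq_zero_iff A b).mp h1
    exact hrb (by rw [h2, map_zero])
  obtain ⟨Da, hDa, -⟩ := HasPrincipalDivisors.exists_divisor (K := AlgebraicClosure ℚ)
    (⟨coeffMap A.subtype a, ha⟩ : ↥(modularFunctionFieldBar N)) ha0
  obtain ⟨Db, hDb, -⟩ := HasPrincipalDivisors.exists_divisor (K := AlgebraicClosure ℚ)
    (⟨coeffMap A.subtype b, hb⟩ : ↥(modularFunctionFieldBar N)) hb0
  have hC0 : algebraMap (AlgebraicClosure ℚ) ↥(modularFunctionFieldBar N) c ≠ 0 := by
    rw [Ne, map_eq_zero]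
    exact hc
  have hDeq : D = Da - Db := by
    ext P
    rw [Finsupp.sub_apply, hfD P, hDa P, hDb P]
    have h1 := congrArg P.ord h
    rw [P.ord_mul hf0 hb0, P.ord_mul hC0 ha0, Fermat.Agent.H23.ord_algebraMap] at h1
    omega
  rw [hDeq]
  exact sub_mem (AddSubgroup.subset_closure ⟨a, ha, hak, hra, hDa⟩)
    (AddSubgroup.subset_closure ⟨b, hb, hbk, hrb, hDb⟩)

/-- The prelude reduction inputs follow from a place reduction alone. -/
theorem reductionInputs_of_isPlaceReduction (N : ℕ) [NeZero N] (ℓ : ℕ) [Fact ℓ.Prime]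
    (hℓN : ¬ ℓ ∣ N) (A : ValuationSubring (AlgebraicClosure ℚ)) (hA : A.LiesOverPrime ℓ)
    (r : Place (AlgebraicClosure ℚ) ↥(modularFunctionFieldBar N) →
      Place (IsLocalRing.ResidueField ↥A)
        ↥(modularFunctionFieldFullC (IsLocalRing.ResidueField ↥A) N))
    (hr : IsPlaceReductionModL A N r) : ReductionInputsModL A N :=
  ⟨r, hr, principalGenerated_uncond N ℓ hℓN A hA⟩

/-- **(G2b)** of row 303 (the hypotheses `h`, `RiemannPackage` are not needed when `ℓ ∤ N`). -/
theorem gaussRange_of_not_dvd (N : ℕ) [NeZero N] (ℓ : ℕ) [Fact ℓ.Prime] (hℓN : ¬ ℓ ∣ N)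
    (A : ValuationSubring (AlgebraicClosure ℚ)) (hA : A.LiesOverPrime ℓ)
    (u : ↥(gaussOBar N A)) :
    gaussRedBar N A u ∈ modularFunctionFieldFullC (IsLocalRing.ResidueField ↥A) N :=
  gaussRange_uncond N ℓ hℓN A hA u

end

end Fermat.Agent.H66
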