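import Mathlib
import Fermat.Prelude.Def_ModularCurve_ReductionModL
import Fermat.Agent.H66.ESD.GaussBar
import Fermat.Agent.H23.PlaceBasic

/-!
# P-ES / ES-D-GAUSS: consequences of the reduction inputs: (G4), (G2b), and the cheap (G1)

Under `PrincipalGeneratedByIntegral` and `L(0) = L` every nonzero `y ∈ F_L` is `c • u` with
`u = ∏ y_i^{±1}` a product of integral series with nonzero reduction in `F_k`.
-/

set_option autoImplicit false
set_option synthInstance.maxHeartbeats 400000
set_option linter.unusedSectionVars false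

open AlgebraicCurve ModularCurve

namespace Fermat.Agent.H66

noncomputable section

variable (N : ℕ) (A : ValuationSubring (AlgebraicClosure ℚ))

/-- `L(0) = L`: a function without zeros and poles is constant. -/
theorem exists_const_of_ord_eq_zero {K F : Type*} [Field K] [Field F] [Algebra K F]
    (h1 : Module.finrank K (riemannRochSpace (0 : Divisor K F)) = 1) (f : F)
    (hf : ∀ v : Place K F, v.ord f = 0) : ∃ c : K, f = algebraMap K F c := by
  have hmem : f ∈ riemannRochSpace (0 : Divisor K F) := by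
    rw [mem_riemannRochSpace_iff]
    intro v
    right
    rw [hf v]
    simp
  have hone : (1 : F) ∈ riemannRochSpace (0 : Divisor K F) := by
    rw [mem_riemannRochSpace_iff]
    intro v
    right
    simp
  have h2 := (finrank_eq_one_iff_of_nonzero' (⟨1, hone⟩ : riemannRochSpace (0 : Divisor K F))
    (by
      intro h
      exact one_ne_zero (congrArg Subtype.val h))).mp h1 ⟨f, hmem⟩
  obtain ⟨c, hc⟩ := h2
  refine ⟨c, ?_⟩
  have h3 := congrArg Subtype.val hc
  simp only [Submodule.coe_smul] at h3
  rw [← h3, Algebra.smul_def, mul_one]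

/-- The key consequence of `PrincipalGeneratedByIntegral`: every divisor in the closure of the
integral principal divisors is the divisor of a unit `u` of the Gauss ring whose reduction lies in
`F_k`, compatibly with every place reduction `r`. -/
theorem exists_unit_of_mem_closure
    (D : Divisor (AlgebraicClosure ℚ) ↥(modularFunctionFieldBar N))
    (hD : D ∈ AddSubgroup.closure (integralPrincipalDivisors A (IsLocalRing.residue ↥A) N)) :
    ∃ (u : ↥(gaussOBar N A))
      (hk : gaussRedBar N A u ∈ modularFunctionFieldFullC (IsLocalRing.ResidueField ↥A) N),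
      gaussRedBar N A u ≠ 0 ∧
      (∀ P, D P = P.ord ((u : ↥(gaussOBar N A)) : ↥(modularFunctionFieldBar N))) ∧
      ∀ r, IsPlaceReductionModL A N r → ∀ Q, Finsupp.mapDomain r D Q =
        Q.ord (⟨gaussRedBar N A u, hk⟩ :
          ↥(modularFunctionFieldFullC (IsLocalRing.ResidueField ↥A) N)) := by
  induction hD using AddSubgroup.closure_induction with
  | mem E hE =>
    obtain ⟨Y, hY, hYk, hne, hE⟩ := hE
    have h1 : ((⟨coeffMap A.subtype Y, hY⟩ : ↥(modularFunctionFieldBar N)) :
        LaurentSeries (AlgebraicClosure ℚ)) = vIota A Y := rfl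
    have h2 := gaussRedBar_of_eq_vIota N A h1
    have h3 : vRho A Y = coeffMap (IsLocalRing.residue ↥A) Y := rfl
    have h5 : gaussRedBar N A ⟨_, mem_gaussOBar_of_eq_vIota N A h1⟩ ∈
        modularFunctionFieldFullC (IsLocalRing.ResidueField ↥A) N := by
      rw [h2, h3]
      exact hYk
    have h6 : gaussRedBar N A ⟨_, mem_gaussOBar_of_eq_vIota N A h1⟩ ≠ 0 := by
      rw [h2, h3]
      exact hne
    refine ⟨⟨_, mem_gaussOBar_of_eq_vIota N A h1⟩, h5, h6, hE, fun r hr Q => ?_⟩
    have h4 := hr.2 Y hY hYk hne E hE Q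
    rw [h4]
    congr 1
    exact Subtype.ext (h2.trans h3).symm
  | zero =>
    have h5 : gaussRedBar N A 1 ∈
        modularFunctionFieldFullC (IsLocalRing.ResidueField ↥A) N := by
      rw [map_one]
      exact one_mem _
    have h6 : gaussRedBar N A 1 ≠ 0 := by
      rw [map_one]
      exact one_ne_zero
    refine ⟨1, h5, h6, fun P => by simp, fun r _ Q => ?_⟩
    rw [Finsupp.mapDomain_zero, Finsupp.zero_apply]
    have : (⟨gaussRedBar N A 1, h5⟩ :
        ↥(modularFunctionFieldFullC (IsLocalRing.ResidueField ↥A) N)) = 1 :=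
      Subtype.ext (map_one _)
    rw [this, Place.ord_one]
  | add E E' _ _ hE hE' =>
    obtain ⟨u, hk, hu, hdiv, hr⟩ := hE
    obtain ⟨u', hk', hu', hdiv', hr'⟩ := hE'
    have hu0 : ((u : ↥(gaussOBar N A)) : ↥(modularFunctionFieldBar N)) ≠ 0 := by
      intro h
      apply hu
      have : u = 0 := Subtype.ext h
      rw [this, map_zero]
    have hu0' : ((u' : ↥(gaussOBar N A)) : ↥(modularFunctionFieldBar N)) ≠ 0 := by
      intro h
      apply hu'
      have : u' = 0 := Subtype.ext h
      rw [this, map_zero]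
    have h5 : gaussRedBar N A (u * u') ∈
        modularFunctionFieldFullC (IsLocalRing.ResidueField ↥A) N := by
      rw [map_mul]
      exact mul_mem hk hk'
    have h6 : gaussRedBar N A (u * u') ≠ 0 := by
      rw [map_mul]
      exact mul_ne_zero hu hu'
    refine ⟨u * u', h5, h6, fun P => ?_, fun r hrr Q => ?_⟩
    · rw [Finsupp.add_apply, hdiv P, hdiv' P]
      exact (P.ord_mul hu0 hu0').symm
    · rw [Finsupp.mapDomain_add, Finsupp.add_apply, hr r hrr Q, hr' r hrr Q]
      have h1 : (⟨gaussRedBar N A (u * u'), h5⟩ :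
          ↥(modularFunctionFieldFullC (IsLocalRing.ResidueField ↥A) N)) =
          ⟨gaussRedBar N A u, hk⟩ * ⟨gaussRedBar N A u', hk'⟩ :=
        Subtype.ext (map_mul _ _ _)
      rw [h1, Q.ord_mul (fun h => hu (congrArg Subtype.val h))
        (fun h => hu' (congrArg Subtype.val h))]
  | neg E _ hE =>
    obtain ⟨u, hk, hu, hdiv, hr⟩ := hE
    have hinv := gaussRedBar_inv N A hu
    have h5 : gaussRedBar N A ⟨_, inv_mem_gaussOBar N A hu⟩ ∈
        modularFunctionFieldFullC (IsLocalRing.ResidueField ↥A) N := by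
      rw [hinv]
      exact inv_mem hk
    have h6 : gaussRedBar N A ⟨_, inv_mem_gaussOBar N A hu⟩ ≠ 0 := by
      rw [hinv]
      exact inv_ne_zero hu
    refine ⟨⟨_, inv_mem_gaussOBar N A hu⟩, h5, h6, fun P => ?_, fun r hrr Q => ?_⟩
    · rw [Finsupp.neg_apply, hdiv P]
      exact (P.ord_inv _).symm
    · have h0 : Finsupp.mapDomain r (-E) = -Finsupp.mapDomain r E := by
        rw [← Finsupp.mapDomain.addMonoidHom_apply, map_neg, Finsupp.mapDomain.addMonoidHom_apply]
      rw [h0, Finsupp.neg_apply, hr r hrr Q]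
      have h1 : (⟨gaussRedBar N A ⟨_, inv_mem_gaussOBar N A hu⟩, h5⟩ :
          ↥(modularFunctionFieldFullC (IsLocalRing.ResidueField ↥A) N)) =
          (⟨gaussRedBar N A u, hk⟩ :
            ↥(modularFunctionFieldFullC (IsLocalRing.ResidueField ↥A) N))⁻¹ :=
        Subtype.ext hinv
      rw [h1, Q.ord_inv]

/-- **Normalisation under the reduction inputs**, with all the by-products. -/
theorem exists_normalisation_of_inputs
    (hgen : PrincipalGeneratedByIntegral A (IsLocalRing.residue ↥A) N)
    (gL : ℕ) (hR : Fermat.Agent.H27.ESD.RiemannPackage (AlgebraicClosure ℚ)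
        ↥(modularFunctionFieldBar N) gL)
    (y : ↥(modularFunctionFieldBar N)) (hy : y ≠ 0) :
    ∃ (c : AlgebraicClosure ℚ) (u : ↥(gaussOBar N A))
      (hk : gaussRedBar N A u ∈ modularFunctionFieldFullC (IsLocalRing.ResidueField ↥A) N),
      c ≠ 0 ∧ gaussRedBar N A u ≠ 0 ∧ y = c • (u : ↥(modularFunctionFieldBar N)) ∧
      ∀ r, IsPlaceReductionModL A N r → ∀ D : Divisor (AlgebraicClosure ℚ)
          ↥(modularFunctionFieldBar N), (∀ P, D P = P.ord y) →
        ∀ Q, Finsupp.mapDomain r D Q =
          Q.ord (⟨gaussRedBar N A u, hk⟩ :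
            ↥(modularFunctionFieldFullC (IsLocalRing.ResidueField ↥A) N)) := by
  have := hR.principal
  obtain ⟨D, hD, -⟩ := HasPrincipalDivisors.exists_divisor (K := AlgebraicClosure ℚ) y hy
  have hDp : D ∈ Divisor.principal (K := AlgebraicClosure ℚ)
      (F := ↥(modularFunctionFieldBar N)) := ⟨y, hy, hD⟩
  obtain ⟨u, hk, hu, hdiv, hr⟩ := exists_unit_of_mem_closure N A D (hgen hDp)
  have hu0 : ((u : ↥(gaussOBar N A)) : ↥(modularFunctionFieldBar N)) ≠ 0 := by
    intro h
    apply hu
    have : u = 0 := Subtype.ext h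
    rw [this, map_zero]
  obtain ⟨c, hc⟩ := exists_const_of_ord_eq_zero hR.finrank_zero
    (y * ((u : ↥(gaussOBar N A)) : ↥(modularFunctionFieldBar N))⁻¹) (fun v => by
      rw [v.ord_mul hy (inv_ne_zero hu0), v.ord_inv, ← hD v, ← hdiv v, add_neg_cancel])
  have hyc : y = c • ((u : ↥(gaussOBar N A)) : ↥(modularFunctionFieldBar N)) := by
    rw [Algebra.smul_def, ← hc, mul_assoc, inv_mul_cancel₀ hu0, mul_one]
  have hc0 : c ≠ 0 := by
    intro h0
    rw [h0, zero_smul] at hyc
    exact hy hyc
  refine ⟨c, u, hk, hc0, hu, hyc, fun r hrr D' hD' Q => ?_⟩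
  have hDD : D' = D := by
    ext P
    rw [hD' P, hD P]
  rw [hDD]
  exact hr r hrr Q

end

end Fermat.Agent.H66
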